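import Fermat.Agent.PsiOscillation.Abel
import Fermat.Agent.DelaValleePoussin.Region
import Fermat.Agent.VonKoch.PrimeCount

/-!
# The Dirichlet series of `π n - li n`

`∑ D n n ^ (-(z + 1)) = L (d, z) / z + R z`, `d n = [n prime] - 1 / log n`, and the derivative of
`L (d, z)` is `ζ₁'/ζ₁ + ζ₀ + H - 1`, `H` the series of the proper prime powers.
-/

set_option autoImplicit false

noncomputable section

namespace FA.Littlewood

open Complex Filter Topology Set
open FA.PsiOscillation (stepDefect norm_stepDefect_le)
open scoped ArithmeticFunction.vonMangoldt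

/-- `[n prime] - 1 / log n`. -/
def primeDensityErr (n : ℕ) : ℝ :=
  if n ≤ 1 then 0 else (if n.Prime then 1 else 0) - 1 / Real.log n

/-- Its partial sums, `π n - li n + O (1)`. -/
def primeErr (n : ℕ) : ℝ := ∑ k ∈ Finset.Icc 1 n, primeDensityErr k

/-- The same, complex. -/
def primeErrC (n : ℕ) : ℂ := (primeErr n : ℂ)

/-- The bound for `primeDensityErr`. -/
def densityConst : ℝ := 1 + 1 / Real.log 2

theorem densityConst_nonneg : 0 ≤ densityConst := by
  have := Real.log_pos one_lt_two
  unfold densityConst
  positivity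

theorem abs_primeDensityErr_le (n : ℕ) : |primeDensityErr n| ≤ densityConst := by
  rw [primeDensityErr]
  split_ifs with h1 h2
  · simpa using densityConst_nonneg
  all_goals
    have hn : (2 : ℝ) ≤ n := by exact_mod_cast (show 2 ≤ n by omega)
    have hl := Real.log_pos one_lt_two
    have hle : 1 / Real.log n ≤ 1 / Real.log 2 :=
      one_div_le_one_div_of_le hl (Real.log_le_log two_pos hn)
    have h0 : 0 ≤ 1 / Real.log n := one_div_nonneg.2 (Real.log_nonneg (by linarith))
    rw [abs_le, densityConst]
    constructor <;> linarith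

theorem norm_primeErrC_le (n : ℕ) : ‖primeErrC n‖ ≤ densityConst * n := by
  rw [primeErrC, Complex.norm_real, Real.norm_eq_abs, primeErr]
  refine (Finset.abs_sum_le_sum_abs _ _).trans
    ((Finset.sum_le_sum fun k _ => abs_primeDensityErr_le k).trans (le_of_eq ?_))
  simp [mul_comm]

theorem primeErrC_zero : primeErrC 0 = 0 := by simp [primeErrC, primeErr]

/-- The Abel defect of `D`. -/
def errDefect (z : ℂ) : ℂ := ∑' n : ℕ, primeErrC n * stepDefect n z

theorem norm_err_stepDefect_le (n : ℕ) {z : ℂ} {δ : ℝ} (hδ : 0 < δ) (hz : δ ≤ z.re) :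
    ‖primeErrC n * stepDefect n z‖ ≤ densityConst * ‖z + 1‖ * (n : ℝ) ^ (-δ - 1) := by
  rcases Nat.eq_zero_or_pos n with rfl | hn
  · simp [primeErrC_zero, Real.zero_rpow (show -δ - 1 ≠ 0 by linarith)]
  have hn1 : (1 : ℝ) ≤ n := Nat.one_le_cast.2 hn
  rw [norm_mul]
  refine (mul_le_mul (norm_primeErrC_le n) (norm_stepDefect_le hn (hδ.trans_le hz)) (norm_nonneg _)
    (mul_nonneg densityConst_nonneg (Nat.cast_nonneg n))).trans ?_
  rw [show densityConst * n * (‖z + 1‖ * (n : ℝ) ^ (-z.re - 2)) =
    densityConst * ‖z + 1‖ * ((n : ℝ) ^ (1 : ℝ) * (n : ℝ) ^ (-z.re - 2)) by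
      rw [Real.rpow_one]; ring, ← Real.rpow_add (by linarith)]
  exact mul_le_mul_of_nonneg_left (Real.rpow_le_rpow_of_exponent_le hn1 (by linarith))
    (mul_nonneg densityConst_nonneg (norm_nonneg _))

theorem summable_err_stepDefect {z : ℂ} (hz : 0 < z.re) :
    Summable fun n : ℕ => primeErrC n * stepDefect n z :=
  Summable.of_norm_bounded ((Real.summable_nat_rpow.2 (by linarith : -z.re - 1 < -1)).mul_left _)
    fun n => norm_err_stepDefect_le n hz le_rfl

theorem differentiableAt_errDefect {z : ℂ} (hz : 0 < z.re) : DifferentiableAt ℂ errDefect z := by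
  obtain ⟨U, hU'⟩ : ∃ U : Set ℂ, U = {w | z.re / 2 < w.re} ∩ Metric.ball 0 (‖z‖ + 1) := ⟨_, rfl⟩
  have hU : IsOpen U := hU' ▸
    (isOpen_lt continuous_const continuous_re).inter Metric.isOpen_ball
  have hzU : z ∈ U := hU' ▸ ⟨show z.re / 2 < z.re by linarith, by simp⟩
  have hd : DifferentiableOn ℂ errDefect U := by
    refine differentiableOn_tsum_of_summable_norm
      ((Real.summable_nat_rpow.2 (by linarith : -(z.re / 2) - 1 < -1)).mul_left
        (densityConst * (‖z‖ + 2))) (fun n => ?_) hU fun n w hw => ?_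
    · rcases Nat.eq_zero_or_pos n with rfl | hn
      · simp only [primeErrC_zero, zero_mul]; exact differentiableOn_const 0
      intro w hw
      rw [hU'] at hw
      have hw0 : w ≠ 0 := fun h => by
        have := hw.1
        simp [h] at this
        linarith
      have hn0 : (n : ℂ) ≠ 0 := Nat.cast_ne_zero.2 hn.ne'
      have hn1 : (n : ℂ) + 1 ≠ 0 := by exact_mod_cast n.succ_ne_zero
      refine DifferentiableAt.differentiableWithinAt ?_
      exact (((differentiableAt_id.add_const 1).neg.const_cpow (Or.inl hn0)).sub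
        (((differentiableAt_id.neg.const_cpow (Or.inl hn0)).sub
          (differentiableAt_id.neg.const_cpow (Or.inl hn1))).div differentiableAt_id hw0)).const_mul
            _
    · rw [hU'] at hw
      refine (norm_err_stepDefect_le n (by linarith) (le_of_lt hw.1)).trans ?_
      refine mul_le_mul_of_nonneg_right (mul_le_mul_of_nonneg_left ?_ densityConst_nonneg)
        (by positivity)
      exact (norm_add_le w 1).trans (by rw [norm_one]; linarith [mem_ball_zero_iff.1 hw.2])
  exact hd.differentiableAt (hU.mem_nhds hzU)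

theorem sum_range_abel_err (z : ℂ) (N : ℕ) :
    ∑ n ∈ Finset.range (N + 1), primeErrC n * ((n : ℂ) ^ (-z) - ((n : ℂ) + 1) ^ (-z)) =
      (∑ n ∈ Finset.range (N + 1), LSeries.term (fun n => (primeDensityErr n : ℂ)) z n) -
        primeErrC N * ((N : ℂ) + 1) ^ (-z) := by
  induction N with
  | zero => simp [primeErrC_zero]
  | succ k ih =>
    rw [Finset.sum_range_succ, ih, Finset.sum_range_succ (n := k + 1),
      LSeries.term_def₀ (by simp [primeDensityErr]) z (k + 1),
      show primeErrC (k + 1) = primeErrC k + (primeDensityErr (k + 1) : ℂ) by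
        simp only [primeErrC, primeErr]
        rw [Finset.sum_Icc_succ_top (by omega)]
        push_cast
        ring]
    push_cast
    ring

theorem summable_primeDensityErr {z : ℂ} (hz : 1 < z.re) :
    LSeriesSummable (fun n => (primeDensityErr n : ℂ)) z :=
  LSeriesSummable_of_bounded_of_one_lt_re (m := densityConst) (fun n _ => by
    rw [Complex.norm_real, Real.norm_eq_abs]; exact abs_primeDensityErr_le n) hz

/-- **The Dirichlet series of `D`.** -/
theorem hasSum_primeErr {z : ℂ} (hz : 1 < z.re) :
    HasSum (fun n : ℕ => primeErrC n * (n : ℂ) ^ (-(z + 1)))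
      (LSeries (fun n => (primeDensityErr n : ℂ)) z / z + errDefect z) := by
  have hz0 : z ≠ 0 := fun h => by simp [h] at hz; linarith
  have hsum : Summable fun n : ℕ => primeErrC n * (n : ℂ) ^ (-(z + 1)) := by
    refine Summable.of_norm_bounded
      ((Real.summable_nat_rpow.2 (by linarith : -z.re < -1)).mul_left densityConst) fun n => ?_
    rcases Nat.eq_zero_or_pos n with rfl | hn
    · simp [primeErrC_zero, Real.zero_rpow (show -z.re ≠ 0 by linarith)]
    have hn' : (0 : ℝ) < n := Nat.cast_pos.2 hn
    rw [norm_mul, norm_natCast_cpow_of_pos hn]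
    refine (mul_le_mul_of_nonneg_right (norm_primeErrC_le n) (by positivity)).trans (le_of_eq ?_)
    rw [mul_assoc, show (-(z + 1)).re = -z.re - 1 by simp; ring]
    congr 1
    rw [show (-z.re) = 1 + (-z.re - 1) by ring, Real.rpow_add hn', Real.rpow_one]
    ring_nf
  have hA : Summable fun n : ℕ =>
      primeErrC n * ((n : ℂ) ^ (-z) - ((n : ℂ) + 1) ^ (-z)) / z := by
    refine (hsum.sub (summable_err_stepDefect (by linarith : 0 < z.re))).congr fun n => ?_
    rw [stepDefect]
    ring
  have hL := summable_primeDensityErr hz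
  have hzero : Tendsto (fun N : ℕ => primeErrC N * ((N : ℂ) + 1) ^ (-z)) atTop (𝓝 0) := by
    refine squeeze_zero_norm (a := fun N : ℕ => densityConst * ((N : ℝ) + 1) ^ (-(z.re - 1)))
      (fun N => ?_) ?_
    · have h0 : (0 : ℝ) < (N : ℝ) + 1 := by positivity
      rw [norm_mul, show (N : ℂ) + 1 = (((N : ℝ) + 1 : ℝ) : ℂ) by push_cast; ring,
        norm_cpow_eq_rpow_re_of_pos h0, neg_re]
      refine (mul_le_mul_of_nonneg_right (norm_primeErrC_le N) (by positivity)).trans ?_
      rw [show -(z.re - 1) = 1 + -z.re by ring, Real.rpow_add h0, Real.rpow_one, mul_assoc]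
      exact mul_le_mul_of_nonneg_left (mul_le_mul_of_nonneg_right (by linarith) (by positivity))
        densityConst_nonneg
    · have := ((tendsto_rpow_neg_atTop (by linarith : 0 < z.re - 1)).comp
        (tendsto_atTop_add_const_right atTop 1 tendsto_natCast_atTop_atTop)).const_mul densityConst
      simpa [Function.comp_def] using this
  have hAval : ∑' n, primeErrC n * ((n : ℂ) ^ (-z) - ((n : ℂ) + 1) ^ (-z)) / z =
      LSeries (fun n => (primeDensityErr n : ℂ)) z / z := by
    refine tendsto_nhds_unique
      ((hA.hasSum.tendsto_sum_nat).comp (tendsto_add_atTop_nat 1)) ?_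
    have h := (((hL.LSeriesHasSum.tendsto_sum_nat).comp (tendsto_add_atTop_nat 1)).sub
      hzero).div_const z
    rw [sub_zero] at h
    refine h.congr fun N => ?_
    simp only [Function.comp_apply]
    rw [← sum_range_abel_err, Finset.sum_div]
  rw [← hAval]
  refine (hA.hasSum.add (summable_err_stepDefect (by linarith : 0 < z.re)).hasSum).congr_fun
    fun n => ?_
  rw [stepDefect]
  ring

/-- `Λ` off the primes. -/
def properPowers (n : ℕ) : ℝ := Λ n - if n.Prime then Real.log n else 0

theorem properPowers_nonneg (n : ℕ) : 0 ≤ properPowers n := by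
  rw [properPowers]
  split_ifs with h
  · rw [ArithmeticFunction.vonMangoldt_apply_prime h, sub_self]
  · simp [ArithmeticFunction.vonMangoldt_nonneg]

theorem sum_properPowers (n : ℕ) :
    ∑ k ∈ Finset.Icc 1 n, properPowers k = Chebyshev.psi n - Chebyshev.theta n := by
  induction n with
  | zero => simp [Chebyshev.psi, Chebyshev.theta]
  | succ m ih =>
    rw [Finset.sum_Icc_succ_top (by omega), ih, properPowers]
    simp only [Chebyshev.psi_eq_sum_Icc, Chebyshev.theta_eq_sum_Icc, Nat.floor_natCast]
    rw [Finset.sum_Icc_succ_top (by omega), Finset.sum_filter, Finset.sum_filter,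
      Finset.sum_Icc_succ_top (by omega)]
    ring

theorem summable_properPowers {z : ℂ} (hz : 1 / 2 < z.re) :
    LSeriesSummable (fun n => (properPowers n : ℂ)) z := by
  obtain ⟨C, hC⟩ := Chebyshev.psi_sub_theta_le_mul_sqrt
  refine LSeriesSummable_of_sum_norm_bigO_and_nonneg (r := 1 / 2) ?_ properPowers_nonneg
    (by norm_num) hz
  refine Asymptotics.IsBigO.of_bound |C| (Eventually.of_forall fun n => ?_)
  rw [sum_properPowers, Real.norm_of_nonneg (sub_nonneg.2 (Chebyshev.theta_le_psi _)),
    ← Real.sqrt_eq_rpow, Real.norm_of_nonneg (Real.sqrt_nonneg _)]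
  exact (hC n).trans (mul_le_mul_of_nonneg_right (le_abs_self C) (Real.sqrt_nonneg _))

theorem differentiableAt_properPowers {z : ℂ} (hz : 1 / 2 < z.re) :
    DifferentiableAt ℂ (LSeries fun n => (properPowers n : ℂ)) z :=
  (LSeries_differentiableOn _).differentiableAt ((isOpen_re_gt_EReal _).mem_nhds
    ((LSeries.abscissaOfAbsConv_le_of_forall_lt_LSeriesSummable (x := 1 / 2) fun y hy =>
      summable_properPowers (by simpa using hy)).trans_lt (EReal.coe_lt_coe_iff.2 hz)))

/-- The derivative of `L (d, z)`, continued. -/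
def derivCont (z : ℂ) : ℂ :=
  -FA.ZeroFree.errLog z + LSeries (fun n => (properPowers n : ℂ)) z - 1

theorem deriv_primeDensityErr {z : ℂ} (hz : 1 < z.re) :
    deriv (LSeries fun n => (primeDensityErr n : ℂ)) z = derivCont z := by
  have habs : LSeries.abscissaOfAbsConv (fun n => (primeDensityErr n : ℂ)) < z.re :=
    (LSeries.abscissaOfAbsConv_le_of_forall_lt_LSeriesSummable (x := 1) fun y hy =>
      summable_primeDensityErr (by simpa using hy)).trans_lt (EReal.coe_lt_coe_iff.2 hz)
  have hz1 : z ≠ 1 := fun h => by simp [h] at hz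
  rw [LSeries_deriv habs, derivCont, FA.ZeroFree.errLog_eq hz1
    (riemannZeta_ne_zero_of_one_lt_re hz),
    ← ArithmeticFunction.LSeries_vonMangoldt_eq_deriv_riemannZeta_div hz,
    ← LSeries_one_eq_riemannZeta hz]
  have h1 : LSeriesSummable 1 z := LSeriesSummable_one_iff.2 hz
  have hd : LSeriesHasSum LSeries.delta z 1 := by
    refine (hasSum_ite_eq 1 (1 : ℂ)).congr_fun fun n => ?_
    rcases eq_or_ne n 0 with rfl | hn
    · simp
    rw [LSeries.term_of_ne_zero hn, LSeries.delta]
    split_ifs with h <;> simp [h]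
  have hs := ((ArithmeticFunction.LSeriesSummable_vonMangoldt hz).LSeriesHasSum.sub
    (summable_properPowers (z := z) (by linarith)).LSeriesHasSum).sub h1.LSeriesHasSum
  have hs' : LSeriesHasSum (LSeries.logMul fun n => (primeDensityErr n : ℂ)) z _ :=
    (hs.add hd).congr_fun fun n => by
      rcases eq_or_ne n 0 with rfl | hn
      · simp
      simp only [LSeries.term_of_ne_zero hn, LSeries.logMul, Pi.one_apply, LSeries.delta,
        primeDensityErr, properPowers]
      rcases eq_or_ne n 1 with rfl | h
      · simp [Nat.not_prime_one]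
      have hn2 : 2 ≤ n := by omega
      have hl : ((Real.log n : ℝ) : ℂ) ≠ 0 := ofReal_ne_zero.2
        (Real.log_pos (by exact_mod_cast (show 1 < n by omega))).ne'
      have hl' : Complex.log (n : ℂ) ≠ 0 := by rwa [← Complex.natCast_log]
      rw [← Complex.natCast_log, if_neg (by omega), if_neg h]
      split_ifs <;> (push_cast; field_simp; ring)
  rw [hs'.LSeries_eq]
  ring

theorem primeErr_two : primeErr 2 = 1 - 1 / Real.log 2 := by
  rw [primeErr, Finset.sum_Icc_succ_top (by omega)]
  simp [primeDensityErr, Nat.prime_two]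

/-- `D n = π n - li n + O (1)`. -/
theorem abs_primeErr_sub_le {n : ℕ} (hn : 2 ≤ n) :
    |primeErr n - ((Nat.primeCounting n : ℝ) - FA.VonKoch.liTwo n)| ≤ 2 / Real.log 2 := by
  have hl2 := Real.log_pos one_lt_two
  suffices h : (Nat.primeCounting n : ℝ) - FA.VonKoch.liTwo n - primeErr n ≤ 1 / Real.log 2 ∧
      1 / Real.log n ≤ (Nat.primeCounting n : ℝ) - FA.VonKoch.liTwo n - primeErr n by
    have h0 : 0 ≤ 1 / Real.log n := one_div_nonneg.2 (Real.log_natCast_nonneg n)
    rw [abs_le, show (2 : ℝ) / Real.log 2 = 2 * (1 / Real.log 2) by ring]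
    constructor <;> linarith [h.1, h.2, one_div_pos.2 hl2]
  induction n, hn using Nat.le_induction with
  | base =>
    have hp : Nat.primeCounting 2 = 1 := by decide
    rw [hp, primeErr_two, show ((2 : ℕ) : ℝ) = 2 by norm_num, FA.VonKoch.liTwo,
      intervalIntegral.integral_same]
    constructor <;> norm_num
  | succ m hm ih =>
    have hm' : (2 : ℝ) ≤ m := by exact_mod_cast hm
    have hpc : (Nat.primeCounting (m + 1) : ℝ) =
        Nat.primeCounting m + if (m + 1).Prime then 1 else 0 := by
      simp only [Nat.primeCounting, Nat.primeCounting', Nat.count_succ]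
      push_cast
      split_ifs <;> simp
    have he : primeErr (m + 1) = primeErr m +
        ((if (m + 1).Prime then 1 else 0) - 1 / Real.log (m + 1 : ℝ)) := by
      rw [primeErr, Finset.sum_Icc_succ_top (by omega), primeErr]
      congr 1
      rw [primeDensityErr, if_neg (by omega)]
      push_cast
      ring
    obtain ⟨J, hJ⟩ : ∃ J, J = ∫ t in (m : ℝ)..(m + 1 : ℝ), 1 / Real.log t := ⟨_, rfl⟩
    have i1 := FA.VonKoch.intervalIntegrable_inv_log (x := (m : ℝ) + 1) (by linarith)
    have hli : FA.VonKoch.liTwo ((m + 1 : ℕ) : ℝ) = FA.VonKoch.liTwo m + J := by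
      rw [hJ]
      push_cast
      exact (intervalIntegral.integral_add_adjacent_intervals
        (FA.VonKoch.intervalIntegrable_inv_log hm') (i1.mono_set (by
          rw [Set.uIcc_of_le (by linarith), Set.uIcc_of_le (by linarith)]
          exact Set.Icc_subset_Icc_left hm'))).symm
    have i2 : IntervalIntegrable (fun t => 1 / Real.log t) MeasureTheory.volume (m : ℝ)
        ((m : ℝ) + 1) := i1.mono_set (by
      rw [Set.uIcc_of_le (by linarith), Set.uIcc_of_le (by linarith)]
      exact Set.Icc_subset_Icc_left hm')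
    have hmono : ∀ t ∈ Set.Icc (m : ℝ) (m + 1), 1 / Real.log (m + 1 : ℝ) ≤ 1 / Real.log t ∧
        1 / Real.log t ≤ 1 / Real.log (m : ℝ) := fun t ht => by
      have h1 : 0 < Real.log (m : ℝ) := Real.log_pos (by linarith)
      have h2 : Real.log (m : ℝ) ≤ Real.log t := Real.log_le_log (by linarith) ht.1
      exact ⟨one_div_le_one_div_of_le (by linarith) (Real.log_le_log (by linarith [ht.1]) ht.2),
        one_div_le_one_div_of_le h1 h2⟩
    have hlo := intervalIntegral.integral_mono_on (by linarith)
      (intervalIntegrable_const (c := 1 / Real.log (m + 1 : ℝ))) i2 fun t ht => (hmono t ht).1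
    have hup := intervalIntegral.integral_mono_on (by linarith) i2
      (intervalIntegrable_const (c := 1 / Real.log (m : ℝ))) fun t ht => (hmono t ht).2
    simp only [intervalIntegral.integral_const, add_sub_cancel_left, one_smul, ← hJ] at hlo hup
    rw [hli, hpc, he]
    obtain ⟨ih1, ih2⟩ := ih
    push_cast
    constructor <;> linarith

end FA.Littlewood

end
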