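import Mathlib.Analysis.SpecialFunctions.Trigonometric.Basic
import Mathlib.Algebra.Order.Floor.Ring

/-!
# Dirichlet's simultaneous approximation

Finitely many frequencies return, all within `2 π / q`, at some multiple `n L₀` with
`1 ≤ n ≤ q ^ k`.
-/

set_option autoImplicit false

noncomputable section

namespace FA.Littlewood

open Real

/-- **Dirichlet**: a common near-period of the frequencies in `A`. -/
theorem exists_near_period (A : Finset ℝ) {q : ℕ} (hq : 0 < q) (L₀ : ℝ) :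
    ∃ n : ℕ, 1 ≤ n ∧ n ≤ q ^ A.card ∧
      ∀ a ∈ A, ∃ k : ℤ, |a * (n * L₀) - 2 * π * k| ≤ 2 * π / q := by
  classical
  have hq' : (0 : ℝ) < q := Nat.cast_pos.2 hq
  have hπ : 0 < 2 * π := by positivity
  obtain ⟨v, hv⟩ : ∃ v : ℕ → ℝ → ℝ, v = fun (j : ℕ) (a : ℝ) => (j : ℝ) * (L₀ * a / (2 * π)) :=
    ⟨_, rfl⟩
  obtain ⟨F, hF⟩ : ∃ F : Fin (q ^ A.card + 1) → (A → Fin q),
      F = fun j a => ⟨⌊Int.fract (v j a) * q⌋₊, (Nat.floor_lt (by positivity)).2
        ((mul_lt_iff_lt_one_left hq').2 (Int.fract_lt_one _))⟩ := ⟨_, rfl⟩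
  obtain ⟨i, j, hij, heq⟩ := Fintype.exists_ne_map_eq_of_card_lt F (by
    rw [Fintype.card_fun, Fintype.card_fin, Fintype.card_fin, Fintype.card_coe]
    omega)
  wlog hlt : (i : ℕ) < j generalizing i j
  · exact this j i hij.symm heq.symm
      (lt_of_le_of_ne (not_lt.1 hlt) fun h => hij (Fin.ext h.symm))
  refine ⟨(j : ℕ) - i, by omega, by omega, fun a ha => ⟨⌊v j a⌋ - ⌊v i a⌋, ?_⟩⟩
  have h := congrArg Fin.val (congrFun heq ⟨a, ha⟩)
  rw [hF] at h
  simp only at h
  have hclose : |Int.fract (v j a) * q - Int.fract (v i a) * q| ≤ 1 := by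
    have h1 := Nat.floor_le (mul_nonneg (Int.fract_nonneg (v i a)) hq'.le)
    have h2 := Nat.lt_floor_add_one (Int.fract (v i a) * q)
    have h3 := Nat.floor_le (mul_nonneg (Int.fract_nonneg (v j a)) hq'.le)
    have h4 := Nat.lt_floor_add_one (Int.fract (v j a) * q)
    rw [h] at h1 h2
    rw [abs_le]
    constructor <;> linarith
  have e : a * (((j : ℕ) - (i : ℕ) : ℕ) * L₀) - 2 * π * ((⌊v j a⌋ - ⌊v i a⌋ : ℤ) : ℝ) =
      2 * π / q * (Int.fract (v j a) * q - Int.fract (v i a) * q) := by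
    rw [Nat.cast_sub hlt.le, Int.cast_sub, Int.fract, Int.fract, hv]
    field_simp
    ring
  rw [e, abs_mul, abs_of_pos (by positivity : 0 < 2 * π / q)]
  exact mul_le_of_le_one_right (by positivity) hclose

end FA.Littlewood

end
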