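import Fermat.Agent.ExplicitFormula.Psi

/-!
# The average of `ψ u - u` over `[(1 - δ) x, (1 + δ) x]`

With all zeros on the line it is `-√x ∑ sin (γ log x) sin (γ δ) / (δ γ²) + O (√x)`.
-/

set_option autoImplicit false

noncomputable section

namespace FA.Littlewood

open Complex FA.RiemannMangoldt FA.ZeroFree FA.ExplicitFormula
open scoped Real Chebyshev

/-- The kernel of the average. -/
def avgKernel (δ : ℝ) (ρ : ℂ) : ℂ :=
  (((1 + δ : ℝ) : ℂ) ^ (ρ + 1) - ((1 - δ : ℝ) : ℂ) ^ (ρ + 1)) / (2 * δ * (ρ * (ρ + 1)))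

/-- The summand of the average at `ρ`. -/
def avgTerm (x δ : ℝ) (ρ : ℂ) : ℂ := (zeroWeight ρ : ℂ) * ((x : ℂ) ^ ρ * avgKernel δ ρ)

/-- The real main part of the summand. -/
def mainWave (x δ : ℝ) (ρ : ℂ) : ℝ :=
  zeroWeight ρ * (Real.sin (ρ.im * Real.log x) * Real.sin (ρ.im * δ) / (δ * ρ.im ^ 2))

theorem abs_log_one_add_sub_le {u : ℝ} (hu : |u| ≤ 1 / 2) :
    |Real.log (1 + u) - u| ≤ 2 * u ^ 2 := by
  obtain ⟨h1, h2⟩ := abs_le.1 hu
  have hp : (0 : ℝ) < 1 + u := by linarith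
  have hle := Real.log_le_sub_one_of_pos hp
  have hge := Real.one_sub_inv_le_log_of_pos hp
  have e : u - (1 - (1 + u)⁻¹) = u ^ 2 * (1 + u)⁻¹ := by field_simp; ring
  have h3 : (1 + u)⁻¹ ≤ 2 := by
    rw [inv_le_comm₀ hp two_pos]
    linarith
  rw [abs_le]
  constructor
  · nlinarith [mul_le_mul_of_nonneg_left h3 (sq_nonneg u)]
  · nlinarith [sq_nonneg u]

theorem cpow_one_add_eq {u : ℝ} (hu : |u| ≤ 1 / 2) {ρ : ℂ} (hρ : ρ.re = 1 / 2) :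
    ∃ E : ℂ, ‖E‖ ≤ 3 * |u| + 2 * |ρ.im| * u ^ 2 ∧
      ((1 + u : ℝ) : ℂ) ^ (ρ + 1) = Complex.exp ((ρ.im * u : ℝ) * I) * Complex.exp E := by
  have hp : (0 : ℝ) < 1 + u := by linarith [(abs_le.1 hu).1]
  have hl := abs_log_one_add_sub_le hu
  refine ⟨((3 / 2 * Real.log (1 + u) : ℝ) : ℂ) +
    ((ρ.im * (Real.log (1 + u) - u) : ℝ) : ℂ) * I, ?_, ?_⟩
  · refine (norm_add_le _ _).trans (add_le_add ?_ ?_)
    · rw [Complex.norm_real, Real.norm_eq_abs, abs_mul, abs_of_pos (by norm_num : (0 : ℝ) < 3 / 2)]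
      have h : |Real.log (1 + u)| ≤ 2 * |u| := by
        have h2 := abs_sub_abs_le_abs_sub (Real.log (1 + u)) u
        nlinarith [sq_abs u, abs_nonneg u]
      linarith
    · rw [norm_mul, Complex.norm_I, mul_one, Complex.norm_real, Real.norm_eq_abs, abs_mul,
        mul_assoc, mul_left_comm]
      exact mul_le_mul_of_nonneg_left hl (abs_nonneg _)
  · rw [cpow_def_of_ne_zero (ofReal_ne_zero.2 hp.ne'), ← Complex.ofReal_log hp.le,
      ← Complex.exp_add]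
    congr 1
    conv_lhs => rw [← Complex.re_add_im ρ, hρ]
    push_cast
    ring

theorem norm_avgKernel_le {δ : ℝ} (hδ : 0 < δ) (hδ4 : δ ≤ 1 / 4) {ρ : ℂ} (hρ : ρ.re = 1 / 2)
    (hz : xiFn ρ = 0) : ‖avgKernel δ ρ‖ ≤ 2 / (δ * ρ.im ^ 2) := by
  have hsq : 0 < ρ.im ^ 2 := by
    have := im_ne_zero_of_zero hz
    positivity
  have hb : ∀ t : ℝ, 0 < t → t ≤ 5 / 4 → ‖(t : ℂ) ^ (ρ + 1)‖ ≤ 2 := fun t ht ht2 => by
    rw [norm_cpow_eq_rpow_re_of_pos ht, add_re, one_re, hρ]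
    refine (Real.rpow_le_rpow ht.le ht2 (by norm_num)).trans ?_
    calc ((5 : ℝ) / 4) ^ ((1 : ℝ) / 2 + 1) ≤ (5 / 4) ^ (2 : ℝ) :=
          Real.rpow_le_rpow_of_exponent_le (by norm_num) (by norm_num)
      _ ≤ 2 := by norm_num
  rw [avgKernel, norm_div, norm_mul, norm_mul, RCLike.norm_ofNat, Complex.norm_real,
    Real.norm_of_nonneg hδ.le]
  refine (div_le_div₀ (by positivity) ((norm_sub_le _ _).trans (add_le_add
    (hb (1 + δ) (by linarith) (by linarith)) (hb (1 - δ) (by linarith) (by linarith))))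
    (by positivity) (mul_le_mul_of_nonneg_left (norm_mul_add_one_ge hz)
      (by positivity : (0 : ℝ) ≤ 2 * δ))).trans (le_of_eq ?_)
  field_simp
  ring

theorem norm_avgKernel_add_le {δ c : ℝ} (hc : 0 < c) (hδ : 0 < δ) (hδ4 : δ ≤ 1 / 4) {ρ : ℂ}
    (hρ : ρ.re = 1 / 2) (hz : xiFn ρ = 0) (hcγ : c ≤ |ρ.im|)
    (hsmall : 3 * δ + 2 * |ρ.im| * δ ^ 2 ≤ 1) :
    ‖avgKernel δ ρ + ((Real.sin (ρ.im * δ) / (δ * ρ.im ^ 2) : ℝ) : ℂ) * I‖ ≤
      (8 + 1 / c) * (1 / ρ.im ^ 2) + 4 * δ * (1 / |ρ.im|) := by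
  obtain ⟨E, hE, hp⟩ := cpow_one_add_eq (u := δ)
    (by rw [abs_of_pos hδ]; linarith) hρ
  obtain ⟨E', hE', hm⟩ := cpow_one_add_eq (u := -δ)
    (by rw [abs_neg, abs_of_pos hδ]; linarith) hρ
  rw [abs_neg, neg_sq] at hE'
  rw [← sub_eq_add_neg] at hm
  rw [abs_of_pos hδ] at hE hE'
  obtain ⟨a, ha⟩ : ∃ a : ℂ, a = ((ρ.im * δ : ℝ) : ℂ) := ⟨_, rfl⟩
  rw [← ha] at hp
  rw [show ((ρ.im * -δ : ℝ) : ℂ) = -a by rw [ha]; push_cast; ring] at hm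
  obtain ⟨err, herr⟩ : ∃ err : ℂ, err = Complex.exp (a * I) * (Complex.exp E - 1) -
      Complex.exp (-a * I) * (Complex.exp E' - 1) := ⟨_, rfl⟩
  have hu : ∀ v : ℝ, ‖Complex.exp ((v : ℂ) * I)‖ = 1 := Complex.norm_exp_ofReal_mul_I
  have herr' : ‖err‖ ≤ 4 * (3 * δ + 2 * |ρ.im| * δ ^ 2) := by
    rw [herr]
    refine (norm_sub_le _ _).trans ?_
    rw [norm_mul, norm_mul, ha, hu, ← Complex.ofReal_neg, hu, one_mul, one_mul]
    linarith [(Complex.norm_exp_sub_one_le (hE.trans hsmall)),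
      Complex.norm_exp_sub_one_le (hE'.trans hsmall)]
  have hnum : ((1 + δ : ℝ) : ℂ) ^ (ρ + 1) - ((1 - δ : ℝ) : ℂ) ^ (ρ + 1) =
      2 * Complex.sin a * I + err := by
    rw [hp, hm, herr, ← Complex.cos_add_sin_I, ← Complex.cos_add_sin_I, Complex.cos_neg,
      Complex.sin_neg]
    ring
  have hi : ρ.im ≠ 0 := im_ne_zero_of_zero hz
  have hi0 : 0 < |ρ.im| := abs_pos.2 hi
  have hsq : 0 < ρ.im ^ 2 := by positivity
  have hpr : ρ * (ρ + 1) ≠ 0 := fun h => by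
    have := norm_mul_add_one_ge hz
    rw [h, norm_zero] at this
    linarith
  obtain ⟨S, hS⟩ : ∃ S, S = Real.sin (ρ.im * δ) := ⟨_, rfl⟩
  have hSin : Complex.sin a = (S : ℂ) := by rw [ha, hS, Complex.ofReal_sin]
  have hγ : (ρ.im : ℂ) ≠ 0 := ofReal_ne_zero.2 hi
  have hδ' : (δ : ℂ) ≠ 0 := ofReal_ne_zero.2 hδ.ne'
  obtain ⟨hρ0, hρ1⟩ := mul_ne_zero_iff.1 hpr
  have key : avgKernel δ ρ + ((S / (δ * ρ.im ^ 2) : ℝ) : ℂ) * I =
      ((S / δ : ℝ) : ℂ) * I * ((((ρ.im ^ 2 : ℝ) : ℂ) + ρ * (ρ + 1)) /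
        (((ρ.im ^ 2 : ℝ) : ℂ) * (ρ * (ρ + 1)))) + err / (2 * δ * (ρ * (ρ + 1))) := by
    rw [avgKernel, hnum, hSin, Complex.ofReal_div, Complex.ofReal_div, Complex.ofReal_mul]
    push_cast
    field_simp
    ring
  rw [← hS, key]
  refine (norm_add_le _ _).trans ?_
  have h1 : ‖((S / δ : ℝ) : ℂ) * I * ((((ρ.im ^ 2 : ℝ) : ℂ) + ρ * (ρ + 1)) /
      (((ρ.im ^ 2 : ℝ) : ℂ) * (ρ * (ρ + 1))))‖ ≤ (2 + 1 / c) * (1 / ρ.im ^ 2) := by
    have hS' : |S / δ| ≤ |ρ.im| := by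
      rw [abs_div, abs_of_pos hδ, div_le_iff₀ hδ, hS]
      exact Real.abs_sin_le_abs.trans (le_of_eq (by rw [abs_mul, abs_of_pos hδ]))
    have e : ((ρ.im ^ 2 : ℝ) : ℂ) + ρ * (ρ + 1) =
        ((3 / 4 : ℝ) : ℂ) + ((2 * ρ.im : ℝ) : ℂ) * I := by
      apply Complex.ext
      · simp [hρ, pow_two]; ring
      · simp [hρ, pow_two]; ring
    rw [norm_mul, norm_mul, norm_div, norm_mul, Complex.norm_I, mul_one, e, Complex.norm_real,
      Complex.norm_real, Real.norm_eq_abs, Real.norm_of_nonneg hsq.le]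
    have hn : ‖((3 / 4 : ℝ) : ℂ) + ((2 * ρ.im : ℝ) : ℂ) * I‖ ≤ 3 / 4 + 2 * |ρ.im| := by
      refine (norm_add_le _ _).trans (le_of_eq ?_)
      rw [norm_mul, Complex.norm_I, mul_one, Complex.norm_real, Complex.norm_real,
        Real.norm_eq_abs, Real.norm_eq_abs, abs_mul, abs_two]
      norm_num
    calc |S / δ| * (‖((3 / 4 : ℝ) : ℂ) + ((2 * ρ.im : ℝ) : ℂ) * I‖ /
          (ρ.im ^ 2 * ‖ρ * (ρ + 1)‖))
        ≤ |ρ.im| * ((3 / 4 + 2 * |ρ.im|) / (ρ.im ^ 2 * ρ.im ^ 2)) := by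
          gcongr
          exact norm_mul_add_one_ge hz
      _ = (3 / 4 * (1 / |ρ.im|) + 2) * (1 / ρ.im ^ 2) := by
          rw [← sq_abs ρ.im]
          field_simp
      _ ≤ _ := by
          refine mul_le_mul_of_nonneg_right ?_ (by positivity)
          have := one_div_le_one_div_of_le hc hcγ
          have : 0 ≤ 1 / |ρ.im| := by positivity
          linarith
  have h2 : ‖err / (2 * δ * (ρ * (ρ + 1)))‖ ≤ 6 * (1 / ρ.im ^ 2) + 4 * δ * (1 / |ρ.im|) := by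
    rw [norm_div, norm_mul, norm_mul, RCLike.norm_ofNat, Complex.norm_real,
      Real.norm_of_nonneg hδ.le]
    refine (div_le_div₀ (by positivity) herr' (by positivity)
      (mul_le_mul_of_nonneg_left (norm_mul_add_one_ge hz)
        (by positivity : (0 : ℝ) ≤ 2 * δ))).trans (le_of_eq ?_)
    rw [← sq_abs ρ.im]
    field_simp
    ring
  linarith

/-- A real part. -/
theorem re_avgTerm_sub_le {x δ c : ℝ} (hc : 0 < c) (hx : 0 < x) (hδ : 0 < δ) (hδ4 : δ ≤ 1 / 4)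
    {ρ : ℂ} (hρ : ρ.re = 1 / 2) (hz : xiFn ρ = 0) (hcγ : c ≤ |ρ.im|)
    (hsmall : 3 * δ + 2 * |ρ.im| * δ ^ 2 ≤ 1) :
    |(avgTerm x δ ρ).re - √x * mainWave x δ ρ| ≤
      √x * (zeroWeight ρ * ((8 + 1 / c) * (1 / ρ.im ^ 2) + 4 * δ * (1 / |ρ.im|))) := by
  obtain ⟨v, hv⟩ : ∃ v, v = Real.sin (ρ.im * δ) / (δ * ρ.im ^ 2) := ⟨_, rfl⟩
  have hk := norm_avgKernel_add_le hc hδ hδ4 hρ hz hcγ hsmall
  rw [← hv] at hk
  have hre : ((x : ℂ) ^ ρ * ((v : ℂ) * I)).re = -(√x * Real.sin (ρ.im * Real.log x) * v) := by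
    have e : (x : ℂ) ^ ρ = (√x : ℝ) * Complex.exp ((ρ.im * Real.log x : ℝ) * I) := by
      rw [cpow_def_of_ne_zero (ofReal_ne_zero.2 hx.ne'), ← Complex.ofReal_log hx.le,
        Real.sqrt_eq_rpow, Real.rpow_def_of_pos hx, Complex.ofReal_exp, ← Complex.exp_add]
      congr 1
      conv_lhs => rw [← Complex.re_add_im ρ, hρ]
      push_cast
      ring
    obtain ⟨w, hw⟩ : ∃ w, w = ρ.im * Real.log x := ⟨_, rfl⟩
    rw [← hw] at e ⊢
    rw [e, Complex.exp_mul_I, ← Complex.ofReal_cos, ← Complex.ofReal_sin]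
    simp only [mul_re, mul_im, add_re, add_im, ofReal_re, ofReal_im, I_re, I_im]
    ring
  have h : |((x : ℂ) ^ ρ * (avgKernel δ ρ + (v : ℂ) * I)).re| ≤
      √x * ((8 + 1 / c) * (1 / ρ.im ^ 2) + 4 * δ * (1 / |ρ.im|)) := by
    refine (abs_re_le_norm _).trans ?_
    rw [norm_mul, norm_cpow_eq_rpow_re_of_pos hx, hρ, ← Real.sqrt_eq_rpow]
    exact mul_le_mul_of_nonneg_left hk (Real.sqrt_nonneg x)
  have e : (avgTerm x δ ρ).re - √x * mainWave x δ ρ =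
      zeroWeight ρ * ((x : ℂ) ^ ρ * (avgKernel δ ρ + (v : ℂ) * I)).re := by
    rw [mul_add, add_re, hre, avgTerm, mainWave, hv, ← Complex.ofReal_natCast, re_ofReal_mul]
    ring
  rw [e, abs_mul, Nat.abs_cast, mul_left_comm]
  exact mul_le_mul_of_nonneg_left h (Nat.cast_nonneg _)

/-- The sum over the zeros against its head. -/
theorem exists_head_bound (H : ∀ ρ : ℂ, xiFn ρ = 0 → ρ.re = 1 / 2) :
    ∃ C, 0 ≤ C ∧ ∀ x δ Γ : ℝ, 0 < x → 0 < δ → δ ≤ 1 / 4 → 1 ≤ Γ → 3 * δ + 2 * Γ * δ ^ 2 ≤ 1 →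
      Summable (avgTerm x δ) ∧
      |(∑' ρ, avgTerm x δ ρ).re - √x * ∑ ρ ∈ zerosUpTo Γ, mainWave x δ ρ| ≤
        C * √x * (1 + δ * ell Γ ^ 2 + ell Γ / (δ * Γ)) := by
  obtain ⟨c, hc, hord⟩ := exists_ordinate_ge
  obtain ⟨d, hd, hinv⟩ := exists_inv_im_le
  obtain ⟨A, hA, hsq⟩ := exists_sq_sum
  obtain ⟨C₁, hC₁, hhead⟩ := exists_sum_head
  obtain ⟨C₂, hC₂, htail⟩ := exists_sum_tail
  refine ⟨(8 + 1 / c) * (d ^ 2 * A) + 4 * (d * C₁) + 2 * (d ^ 2 * C₂), by positivity,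
    fun x δ Γ hx hδ hδ4 hΓ hsmall => ?_⟩
  have hsqd : ∀ ρ : ℂ, xiFn ρ = 0 → 1 / ρ.im ^ 2 ≤ d ^ 2 * (1 / (1 + |ρ.im|) ^ 2) := fun ρ hρ => by
    rw [← sq_abs, ← one_div_pow, ← one_div_pow, ← mul_pow]
    exact pow_le_pow_left₀ (by positivity) (hinv ρ hρ) 2
  have hnorm : ∀ ρ : ℂ, ‖avgTerm x δ ρ‖ ≤
      2 * d ^ 2 * (√x / δ) * (zeroWeight ρ * (1 / (1 + |ρ.im|) ^ 2)) := fun ρ => by
    by_cases hρ : xiFn ρ = 0
    · rw [avgTerm, norm_mul, norm_mul, Complex.norm_natCast, norm_cpow_eq_rpow_re_of_pos hx,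
        H ρ hρ, ← Real.sqrt_eq_rpow]
      calc (zeroWeight ρ : ℝ) * (√x * ‖avgKernel δ ρ‖)
          ≤ zeroWeight ρ * (√x * (2 / δ * (1 / ρ.im ^ 2))) := by
            gcongr
            exact (norm_avgKernel_le hδ hδ4 (H ρ hρ) hρ).trans (le_of_eq (by field_simp))
        _ ≤ zeroWeight ρ * (√x * (2 / δ * (d ^ 2 * (1 / (1 + |ρ.im|) ^ 2)))) := by
            gcongr zeroWeight ρ * (√x * (2 / δ * ?_))
            exact hsqd ρ hρ
        _ = _ := by ring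
    · simp [avgTerm, zeroWeight_eq_zero hρ]
  have hsummable : Summable (avgTerm x δ) := by
    refine Summable.of_norm ?_
    refine summable_of_sum_le (c := 2 * d ^ 2 * (√x / δ) * A) (fun ρ => norm_nonneg _) fun S => ?_
    refine (Finset.sum_le_sum fun ρ _ => hnorm ρ).trans ?_
    rw [← Finset.mul_sum]
    exact mul_le_mul_of_nonneg_left (hsq S) (by positivity)
  refine ⟨hsummable, ?_⟩
  have hsplit := hsummable.sum_add_tsum_compl (s := zerosUpTo Γ)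
  have hrest : |(∑' ρ : ↑(↑(zerosUpTo Γ) : Set ℂ)ᶜ, avgTerm x δ ρ).re| ≤
      2 * d ^ 2 * (√x / δ) * (C₂ * (ell Γ / Γ)) := by
    refine (abs_re_le_norm _).trans ((norm_tsum_le_tsum_norm
      (hsummable.norm.subtype _)).trans (Real.tsum_le_of_sum_le (fun _ => norm_nonneg _)
        fun S => ?_))
    refine le_trans (b := ∑ ρ ∈ S, 2 * d ^ 2 * (√x / δ) *
      (zeroWeight (ρ : ℂ) * (1 / (1 + |(ρ : ℂ).im|) ^ 2)))
      (Finset.sum_le_sum fun ρ _ => hnorm (ρ : ℂ)) ?_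
    rw [← Finset.mul_sum]
    refine mul_le_mul_of_nonneg_left ?_ (by positivity)
    classical
    obtain ⟨U, hU⟩ : ∃ U : Finset ℂ, U = (S.map (Function.Embedding.subtype _)).filter
        fun ρ => xiFn ρ = 0 := ⟨_, rfl⟩
    refine le_trans (le_of_eq ?_) (htail Γ U hΓ fun ρ hρ => ?_)
    · rw [hU, Finset.sum_filter_of_ne fun ρ _ hne => ?_]
      · exact (Finset.sum_map S (Function.Embedding.subtype _)
          fun z => (zeroWeight z : ℝ) * (1 / (1 + |z.im|) ^ 2)).symm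
      · by_contra h
        exact hne (by simp [zeroWeight_eq_zero h])
    · rw [hU, Finset.mem_filter, Finset.mem_map] at hρ
      obtain ⟨⟨σ, -, rfl⟩, hz⟩ := hρ
      refine ⟨hz, not_le.1 fun hle => σ.2 ?_⟩
      exact mem_zerosUpTo.2 ⟨hz, hle⟩
  have hmain : |(∑ ρ ∈ zerosUpTo Γ, avgTerm x δ ρ).re -
      √x * ∑ ρ ∈ zerosUpTo Γ, mainWave x δ ρ| ≤
        √x * ((8 + 1 / c) * (d ^ 2 * A) + 4 * δ * (d * (C₁ * ell Γ ^ 2))) := by
    rw [Complex.re_sum, Finset.mul_sum, ← Finset.sum_sub_distrib]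
    refine (Finset.abs_sum_le_sum_abs _ _).trans ((Finset.sum_le_sum (g := fun ρ : ℂ =>
      √x * ((8 + 1 / c) * (d ^ 2 * (zeroWeight ρ * (1 / (1 + |ρ.im|) ^ 2))) +
        4 * δ * (d * (zeroWeight ρ * (1 / (1 + |ρ.im|)))))) fun ρ hρ => ?_).trans ?_)
    · rw [mem_zerosUpTo] at hρ
      have hcγ : c ≤ |ρ.im| :=
        le_trans (le_mul_of_one_le_right hc.le (by linarith [abs_nonneg ρ.im])) (hord ρ hρ.1)
      refine (re_avgTerm_sub_le hc hx hδ hδ4 (H ρ hρ.1) hρ.1 hcγ ?_).trans ?_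
      · nlinarith [hρ.2, sq_nonneg δ]
      · refine mul_le_mul_of_nonneg_left ?_ (Real.sqrt_nonneg x)
        calc (zeroWeight ρ : ℝ) * ((8 + 1 / c) * (1 / ρ.im ^ 2) + 4 * δ * (1 / |ρ.im|))
            ≤ zeroWeight ρ * ((8 + 1 / c) * (d ^ 2 * (1 / (1 + |ρ.im|) ^ 2)) +
                4 * δ * (d * (1 / (1 + |ρ.im|)))) :=
              mul_le_mul_of_nonneg_left (add_le_add
                (mul_le_mul_of_nonneg_left (hsqd ρ hρ.1) (by positivity))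
                (mul_le_mul_of_nonneg_left (hinv ρ hρ.1) (by positivity))) (Nat.cast_nonneg _)
          _ = _ := by ring
    · simp only [← Finset.mul_sum, Finset.sum_add_distrib]
      gcongr
      · exact hsq _
      · exact hhead Γ _ (by linarith) fun ρ hρ => mem_zerosUpTo.1 hρ
  rw [← hsplit, add_re]
  have hfin : √x * ((8 + 1 / c) * (d ^ 2 * A) + 4 * δ * (d * (C₁ * ell Γ ^ 2))) +
      2 * d ^ 2 * (√x / δ) * (C₂ * (ell Γ / Γ)) ≤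
      ((8 + 1 / c) * (d ^ 2 * A) + 4 * (d * C₁) + 2 * (d ^ 2 * C₂)) * √x *
        (1 + δ * ell Γ ^ 2 + ell Γ / (δ * Γ)) := by
    obtain ⟨p, hp⟩ : ∃ p, p = δ * ell Γ ^ 2 := ⟨_, rfl⟩
    obtain ⟨r, hr⟩ : ∃ r, r = ell Γ / (δ * Γ) := ⟨_, rfl⟩
    have hp0 : 0 ≤ p := hp ▸ by positivity
    have hr0 : 0 ≤ r := by
      rw [hr]
      have := ell_pos Γ
      positivity
    have e1 : √x * ((8 + 1 / c) * (d ^ 2 * A) + 4 * δ * (d * (C₁ * ell Γ ^ 2))) +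
        2 * d ^ 2 * (√x / δ) * (C₂ * (ell Γ / Γ)) =
        √x * ((8 + 1 / c) * (d ^ 2 * A) * 1 + 4 * (d * C₁) * p + 2 * (d ^ 2 * C₂) * r) := by
      rw [hp, hr]
      field_simp
    rw [e1, ← hp, ← hr, mul_comm _ (√x), mul_assoc (√x)]
    refine mul_le_mul_of_nonneg_left ?_ (Real.sqrt_nonneg x)
    have k1 : 0 ≤ (8 + 1 / c) * (d ^ 2 * A) * (p + r) := by positivity
    have k2 : 0 ≤ 4 * (d * C₁) * (1 + r) := by positivity
    have k3 : 0 ≤ 2 * (d ^ 2 * C₂) * (1 + p) := by positivity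
    linarith
  obtain ⟨h1, h2⟩ := abs_le.1 hmain
  obtain ⟨h3, h4⟩ := abs_le.1 hrest
  rw [abs_le]
  constructor <;> linarith

/-- **The average**, by the explicit formula. -/
theorem exists_average : ∃ C, 0 ≤ C ∧ ∀ x δ : ℝ, 0 < x → 0 < δ → δ ≤ 1 / 4 → 1 ≤ δ * √x →
    Summable (avgTerm x δ) →
    |(psiOne ((1 + δ) * x) - psiOne ((1 - δ) * x)) / (2 * δ * x) - x +
      (∑' ρ, avgTerm x δ ρ).re| ≤ C := by
  obtain ⟨C, hC, hex⟩ := exists_explicit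
  obtain ⟨q, hq⟩ : ∃ q, q = deriv riemannZeta 0 / riemannZeta 0 := ⟨_, rfl⟩
  simp only [← hq] at hex
  refine ⟨2 * C + ‖q‖, by positivity, fun x δ hx hδ hδ4 hbig hsum => ?_⟩
  obtain ⟨a, ha⟩ : ∃ a, a = (1 - δ) * x := ⟨_, rfl⟩
  obtain ⟨b, hb⟩ : ∃ b, b = (1 + δ) * x := ⟨_, rfl⟩
  rw [← ha, ← hb]
  have ha0 : 0 < a := ha ▸ mul_pos (by linarith) hx
  have hb0 : 0 < b := hb ▸ mul_pos (by linarith) hx
  have hden : 0 < 2 * δ * x := by positivity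
  have hpt : ∀ ρ, zeroTerm b ρ - zeroTerm a ρ = ((2 * δ * x : ℝ) : ℂ) * avgTerm x δ ρ := fun ρ => by
    by_cases hρ : xiFn ρ = 0
    · rw [zeroTerm, zeroTerm, avgTerm, avgKernel, hb, ha, Complex.ofReal_mul, Complex.ofReal_mul,
        mul_cpow_ofReal_nonneg (by linarith) hx.le, mul_cpow_ofReal_nonneg (by linarith) hx.le,
        cpow_add (x := (x : ℂ)) _ _ (ofReal_ne_zero.2 hx.ne'), cpow_one]
      have hδ' : (δ : ℂ) ≠ 0 := ofReal_ne_zero.2 hδ.ne'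
      push_cast
      field_simp
    · simp [zeroTerm_eq_zero _ hρ, avgTerm, zeroWeight_eq_zero hρ]
  have hdiff : (∑' ρ, zeroTerm b ρ) - ∑' ρ, zeroTerm a ρ =
      ((2 * δ * x : ℝ) : ℂ) * ∑' ρ, avgTerm x δ ρ := by
    rw [← Summable.tsum_sub (summable_norm_zeroTerm hb0).of_norm
      (summable_norm_zeroTerm ha0).of_norm, ← tsum_mul_left]
    exact tsum_congr hpt
  obtain ⟨P, hP⟩ : ∃ P : ℂ, P = (psiOne b : ℂ) - ((b : ℂ) ^ 2 / 2 - ∑' ρ, zeroTerm b ρ -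
      (b : ℂ) * q) := ⟨_, rfl⟩
  obtain ⟨Q, hQ⟩ : ∃ Q : ℂ, Q = (psiOne a : ℂ) - ((a : ℂ) ^ 2 / 2 - ∑' ρ, zeroTerm a ρ -
      (a : ℂ) * q) := ⟨_, rfl⟩
  have hP' : ‖P‖ ≤ C * √b := hP ▸ hex b hb0
  have hQ' : ‖Q‖ ≤ C * √a := hQ ▸ hex a ha0
  have e : (((psiOne b - psiOne a) / (2 * δ * x) - x : ℝ) : ℂ) + ∑' ρ, avgTerm x δ ρ =
      (P - Q) / ((2 * δ * x : ℝ) : ℂ) - q := by
    obtain ⟨d, hd'⟩ : ∃ d : ℂ, d = ((2 * δ * x : ℝ) : ℂ) := ⟨_, rfl⟩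
    have hd : d ≠ 0 := hd' ▸ ofReal_ne_zero.2 hden.ne'
    have hba : (b : ℂ) - a = d := by rw [hd', hb, ha]; push_cast; ring
    have hba2 : (b : ℂ) ^ 2 - (a : ℂ) ^ 2 = 2 * x * d := by rw [hd', hb, ha]; push_cast; ring
    have hPQ : P - Q = (psiOne b : ℂ) - psiOne a + d * ((∑' ρ, avgTerm x δ ρ) - x + q) := by
      rw [hP, hQ]
      rw [← hd'] at hdiff
      linear_combination hdiff - hba2 / 2 + q * hba
    rw [← hd', hPQ, Complex.ofReal_sub, Complex.ofReal_div, ← hd', Complex.ofReal_sub]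
    field_simp
    ring
  have hre := congrArg Complex.re e
  rw [add_re, ofReal_re] at hre
  rw [hre]
  refine (abs_re_le_norm _).trans ((norm_sub_le _ _).trans (add_le_add ?_ le_rfl))
  rw [norm_div, Complex.norm_real, Real.norm_of_nonneg hden.le, div_le_iff₀ hden]
  refine (norm_sub_le _ _).trans ((add_le_add hP' hQ').trans ?_)
  have hsb : √b ≤ 2 * √x := by
    rw [Real.sqrt_le_left (by positivity), mul_pow, Real.sq_sqrt hx.le, hb]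
    nlinarith
  have hsa : √a ≤ 2 * √x := by
    rw [Real.sqrt_le_left (by positivity), mul_pow, Real.sq_sqrt hx.le, ha]
    nlinarith
  have hsx : √x ≤ δ * x := by
    calc √x = 1 * √x := (one_mul _).symm
      _ ≤ δ * √x * √x := mul_le_mul_of_nonneg_right hbig (Real.sqrt_nonneg x)
      _ = _ := by rw [mul_assoc, Real.mul_self_sqrt hx.le]
  nlinarith [mul_le_mul_of_nonneg_left hsb hC, mul_le_mul_of_nonneg_left hsa hC,
    mul_le_mul_of_nonneg_left hsx hC]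

end FA.Littlewood

end
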