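import Fermat.Agent.LittlewoodOscillation.Abel
import Fermat.Agent.PsiOscillation.Landau

/-!
# Landau's theorem for `π n - li n`

If `π n - li n ≤ C n ^ α` for large `n`, or the same from below, `ζ` has no zero with `re s > α`:
the series of the tail has nonnegative coefficients, and a primitive of `ζ₁'/ζ₁ + ζ₀ + H - 1`
continues it past the abscissa.
-/

set_option autoImplicit false

noncomputable section

namespace FA.Littlewood

open Complex Filter Topology Set
open FA.Signs (removed)
open scoped ComplexOrder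

variable {C α e : ℝ} {N : ℕ}

/-- `C n ^ α - e D n`. -/
def coeffErr (C α e : ℝ) (n : ℕ) : ℝ := C * (n : ℝ) ^ α - e * primeErr n

/-- These coefficients with those below `N` removed. -/
def tailErr (C α e : ℝ) (N n : ℕ) : ℝ := if n < N then 0 else coeffErr C α e n

/-- The removed terms. -/
def finitePart (C α e : ℝ) (N : ℕ) (z : ℂ) : ℂ :=
  ∑ n ∈ Finset.range N, LSeries.term (fun n => (coeffErr C α e n : ℂ)) (z + 1) n

/-- `L (d, z)`, as continued by the series of the tail. -/
def densityCont (C α e : ℝ) (N : ℕ) (z : ℂ) : ℂ :=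
  z * ((C * riemannZeta (z + 1 - α) - finitePart C α e N z -
    LSeries (fun n => (tailErr C α e N n : ℂ)) (z + 1)) / e - errDefect z)

theorem differentiableAt_finitePart (C α e : ℝ) (N : ℕ) (z : ℂ) :
    DifferentiableAt ℂ (finitePart C α e N) z :=
  DifferentiableAt.fun_sum fun n _ =>
    DifferentiableAt.comp (f := fun w : ℂ => w + 1) z
      (g := fun s => LSeries.term (fun n => (coeffErr C α e n : ℂ)) s n)
      (FA.Signs.differentiable_term _ n _) (differentiableAt_id.add_const 1)

theorem differentiableAt_zeta_shift {z : ℂ} (hz : α < z.re) :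
    DifferentiableAt ℂ (fun w : ℂ => riemannZeta (w + 1 - α)) z :=
  (differentiableAt_riemannZeta fun h => by
    have := congrArg Complex.re h
    simp at this
    linarith).fun_comp' z (f := fun w : ℂ => w + 1 - α) (by fun_prop)

theorem lSeriesHasSum_tailErr (C e : ℝ) (N : ℕ) {z : ℂ} (hz : 1 < z.re)
    (hα1 : α < 1) :
    LSeriesHasSum (fun n => (tailErr C α e N n : ℂ)) (z + 1)
      (C * riemannZeta (z + 1 - α) -
        e * (LSeries (fun n => (primeDensityErr n : ℂ)) z / z + errDefect z) -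
        finitePart C α e N z) := by
  have hA : HasSum (fun n : ℕ => (C : ℂ) * LSeries.term 1 (z + 1 - α) n)
      (C * riemannZeta (z + 1 - α)) := by
    refine HasSum.mul_left _ ?_
    have h1 : 1 < (z + 1 - α : ℂ).re := by simp; linarith
    rw [← LSeries_one_eq_riemannZeta h1]
    exact (LSeriesSummable_one_iff.2 h1).LSeriesHasSum
  have hP := (hasSum_primeErr hz).mul_left (e : ℂ)
  have h : LSeriesHasSum (fun n => (coeffErr C α e n : ℂ)) (z + 1)
      (C * riemannZeta (z + 1 - α) -
        e * (LSeries (fun n => (primeDensityErr n : ℂ)) z / z + errDefect z)) := by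
    refine (hA.sub hP).congr_fun fun n => ?_
    rcases Nat.eq_zero_or_pos n with rfl | hn
    · simp [primeErrC_zero]
    have hn0 : (n : ℂ) ≠ 0 := Nat.cast_ne_zero.2 hn.ne'
    simp only [LSeries.term_of_ne_zero hn.ne', Pi.one_apply, coeffErr, primeErrC]
    rw [ofReal_sub, ofReal_mul, ofReal_mul, ofReal_cpow (Nat.cast_nonneg n), ofReal_natCast,
      div_eq_mul_inv, one_div, ← cpow_neg, ← cpow_neg,
      show -(z + 1 - (α : ℂ)) = (α : ℂ) + -(z + 1) by ring, cpow_add _ _ hn0]
    ring
  have h' := FA.Signs.hasSum_removed (Finset.range N) h.LSeriesSummable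
  have e1 : (fun n => (tailErr C α e N n : ℂ)) =
      removed (fun n => (coeffErr C α e n : ℂ)) (Finset.range N) := funext fun n => by
    simp only [tailErr, removed, Finset.mem_range]
    split_ifs <;> simp
  rw [e1]
  convert h' using 1
  rw [h.LSeries_eq, finitePart]

theorem differentiableAt_tailSeries {v : ℝ}
    (hsum : ∀ z : ℂ, v < z.re → LSeriesSummable (fun n => (tailErr C α e N n : ℂ)) (z + 1)) {z : ℂ}
    (hz : v < z.re) :
    DifferentiableAt ℂ (fun w => LSeries (fun n => (tailErr C α e N n : ℂ)) (w + 1)) z := by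
  have habs : LSeries.abscissaOfAbsConv (fun n => (tailErr C α e N n : ℂ)) < (z + 1).re := by
    obtain ⟨u, hu1, hu2⟩ := exists_between hz
    refine (LSeries.abscissaOfAbsConv_le_of_forall_lt_LSeriesSummable (x := u + 1) fun y hy => ?_
      ).trans_lt (by rw [add_re, one_re]; exact_mod_cast (by linarith : u + 1 < z.re + 1))
    have := hsum (((y - 1 : ℝ) : ℂ)) (by simp; linarith)
    simpa using this
  exact ((LSeries_differentiableOn _).differentiableAt
    ((isOpen_re_gt_EReal _).mem_nhds habs)).fun_comp' z (differentiableAt_id.add_const 1)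

/-- Where the series converges there are no zeros, and the derivative is known. -/
theorem deriv_densityCont (hα : 1 / 2 < α) (hα1 : α < 1) (he : e ≠ 0) {v : ℝ} (hv : α ≤ v)
    (hsum : ∀ z : ℂ, v < z.re → LSeriesSummable (fun n => (tailErr C α e N n : ℂ)) (z + 1))
    {z : ℂ} (hz : v < z.re) :
    riemannZeta₁ z ≠ 0 ∧ DifferentiableAt ℂ (densityCont C α e N) z ∧
      deriv (densityCont C α e N) z = derivCont z := by
  obtain ⟨U, hU⟩ : ∃ U : Set ℂ, U = {w | v < w.re} := ⟨_, rfl⟩
  have hUo : IsOpen U := hU ▸ isOpen_lt continuous_const continuous_re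
  have hmem : ∀ {w}, w ∈ U → v < w.re := fun {w} hw => by rwa [hU] at hw
  have hD : ∀ w ∈ U, DifferentiableAt ℂ (densityCont C α e N) w := fun w hw => by
    have hw' := hmem hw
    exact differentiableAt_id.mul ((((((differentiableAt_zeta_shift (lt_of_le_of_lt hv hw')
      ).const_mul _).sub (differentiableAt_finitePart C α e N w)).sub
        (differentiableAt_tailSeries hsum hw')).div_const _).sub
          (differentiableAt_errDefect (by linarith)))
  have hDd : DifferentiableOn ℂ (deriv (densityCont C α e N)) U :=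
    DifferentiableOn.deriv (fun w hw => (hD w hw).differentiableWithinAt) hUo
  obtain ⟨K, hK⟩ : ∃ K : ℂ → ℂ, K = fun w => deriv (densityCont C α e N) w -
      LSeries (fun n => (properPowers n : ℂ)) w + 1 - riemannZeta₀ w := ⟨_, rfl⟩
  have hKd : ∀ w ∈ U, DifferentiableAt ℂ K w := fun w hw => by
    rw [hK]
    exact (((hDd.differentiableAt (hUo.mem_nhds hw)).sub
      (differentiableAt_properPowers (by linarith [hmem hw]))).add_const 1).sub
        (differentiable_riemannZeta₀ w)
  have hkey : EqOn (deriv riemannZeta₁) (fun w => riemannZeta₁ w * K w) U := by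
    obtain ⟨c, hc, hc1⟩ : ∃ c : ℂ, c ∈ U ∧ 1 < c.re :=
      ⟨((max v 1 + 1 : ℝ) : ℂ), by rw [hU]; show v < _; simp; linarith [le_max_left v 1],
        by simp⟩
    refine AnalyticOnNhd.eqOn_of_preconnected_of_eventuallyEq
      (DifferentiableOn.analyticOnNhd (fun w _ =>
        (differentiable_riemannZeta₁.deriv w).differentiableWithinAt) hUo)
      (DifferentiableOn.analyticOnNhd (fun w hw =>
        ((differentiable_riemannZeta₁ w).mul (hKd w hw)).differentiableWithinAt) hUo)
      (hU ▸ (convex_halfSpace_re_gt v).isPreconnected) hc ?_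
    filter_upwards [hUo.mem_nhds hc,
      (isOpen_lt continuous_const continuous_re).mem_nhds hc1] with w hw hw1
    have hw1' : 1 < w.re := hw1
    have hz1 : w ≠ 1 := fun h => by simp [h] at hw1'
    have hnz : riemannZeta₁ w ≠ 0 := fun h => riemannZeta_ne_zero_of_one_lt_re hw1'
      (by rw [riemannZeta_eq_inv_sub_mul hz1, h, mul_zero])
    have hev : densityCont C α e N =ᶠ[𝓝 w] LSeries fun n => (primeDensityErr n : ℂ) := by
      filter_upwards [(isOpen_lt continuous_const continuous_re).mem_nhds hw1] with u hu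
      have hu' : 1 < u.re := hu
      have hu0 : u ≠ 0 := fun h => by simp [h] at hu'; linarith
      have hec : (e : ℂ) ≠ 0 := Complex.ofReal_ne_zero.2 he
      rw [densityCont, (lSeriesHasSum_tailErr C e N hu' hα1).LSeries_eq]
      field_simp
      ring
    have hd := hev.deriv_eq
    rw [deriv_primeDensityErr hw1', derivCont, FA.ZeroFree.errLog] at hd
    simp only [hK]
    rw [hd]
    field_simp
    ring
  have hzU : z ∈ U := hU ▸ hz
  have hnz : riemannZeta₁ z ≠ 0 := by
    intro h0
    obtain ⟨m, hm, hev, hlim⟩ := FA.PsiOscillation.exists_tendsto_logDeriv h0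
    have hlim0 : Tendsto (fun w => (w - z) * (deriv riemannZeta₁ w / riemannZeta₁ w)) (𝓝[≠] z)
        (𝓝 0) := by
      have hc : ContinuousAt (fun w => (w - z) * K w) z :=
        (continuousAt_id.sub continuousAt_const).mul (hKd z hzU).continuousAt
      have := hc.tendsto.mono_left (nhdsWithin_le_nhds (s := {z}ᶜ))
      simp only [sub_self, zero_mul] at this
      refine this.congr' ?_
      filter_upwards [hev, nhdsWithin_le_nhds (hUo.mem_nhds hzU)] with w hw hwU
      rw [hkey hwU, mul_div_cancel_left₀ _ hw]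
    have := tendsto_nhds_unique hlim hlim0
    simp only [Nat.cast_eq_zero] at this
    omega
  refine ⟨hnz, hD z hzU, ?_⟩
  have h := hkey hzU
  simp only [hK] at h
  rw [derivCont, FA.ZeroFree.errLog, h, mul_div_cancel_left₀ _ hnz]
  ring

theorem tailErr_nonneg (h : ∀ n, N ≤ n → e * primeErr n ≤ C * (n : ℝ) ^ α) (n : ℕ) :
    (0 : ℂ) ≤ (tailErr C α e N n : ℂ) := by
  rw [Complex.zero_le_real, tailErr]
  split_ifs with hn
  · exact le_rfl
  · have := h n (not_lt.1 hn)
    simp only [coeffErr]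
    linarith

/-- **Landau's step.** -/
theorem summable_of_primeErr_le (hα : 1 / 2 < α) (hα1 : α < 1) (he : e ≠ 0)
    (h : ∀ n, N ≤ n → e * primeErr n ≤ C * (n : ℝ) ^ α) {z : ℂ} (hz : α < z.re) :
    LSeriesSummable (fun n => (tailErr C α e N n : ℂ)) (z + 1) := by
  obtain ⟨a, ha⟩ : ∃ a : ℕ → ℂ, a = fun n => (tailErr C α e N n : ℂ) := ⟨_, rfl⟩
  rw [← ha]
  obtain ⟨S, hS⟩ : ∃ S : Set ℝ, S = {x | α < x ∧ LSeriesSummable a ((x + 1 : ℝ) : ℂ)} := ⟨_, rfl⟩
  have h2 : (2 : ℝ) ∈ S := by
    rw [hS]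
    refine ⟨by linarith, ?_⟩
    have := (lSeriesHasSum_tailErr C e N (z := (2 : ℂ)) (by norm_num) hα1
      ).LSeriesSummable
    rw [ha]
    convert this using 2
    norm_num
  have hbdd : BddBelow S := ⟨α, fun x hx => by rw [hS] at hx; exact hx.1.le⟩
  obtain ⟨v, hv⟩ : ∃ v, v = sInf S := ⟨_, rfl⟩
  have hαv : α ≤ v := hv ▸ le_csInf ⟨2, h2⟩ fun x hx => by rw [hS] at hx; exact hx.1.le
  have hsum : ∀ w : ℂ, v < w.re → LSeriesSummable a (w + 1) := fun w hw => by
    obtain ⟨x, hx, hxw⟩ := exists_lt_of_csInf_lt ⟨2, h2⟩ (hv ▸ hw)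
    rw [hS] at hx
    exact hx.2.of_re_le_re (by simp; linarith)
  rcases eq_or_lt_of_le hαv with heq | hlt
  · exact hsum z (heq ▸ hz)
  exfalso
  have hv0 : 0 < v := by linarith
  obtain ⟨ε, hε, hball⟩ := Metric.eventually_nhds_iff.1
    (differentiable_riemannZeta₁.continuous.continuousAt.eventually_ne
      (FA.PsiOscillation.riemannZeta₁_real_ne_zero hv0))
  obtain ⟨r, hr⟩ : ∃ r, r = min ε (v - α) := ⟨_, rfl⟩
  have hr0 : 0 < r := hr ▸ lt_min hε (by linarith)
  obtain ⟨B, hB⟩ : ∃ B : Set ℂ, B = Metric.ball (v : ℂ) r := ⟨_, rfl⟩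
  have hBre : ∀ w ∈ B, α < w.re ∧ riemannZeta₁ w ≠ 0 := fun w hw => by
    rw [hB, Metric.mem_ball, dist_eq] at hw
    have h1 := abs_lt.1 ((abs_re_le_norm (w - v)).trans_lt hw)
    simp only [sub_re, ofReal_re] at h1
    refine ⟨by linarith [hr ▸ min_le_right ε (v - α)], hball ?_⟩
    rw [dist_eq]
    exact hw.trans_le (hr ▸ min_le_left _ _)
  have hG : DifferentiableOn ℂ derivCont (Metric.ball (v : ℂ) r) := fun w hw => by
    obtain ⟨h1, h2⟩ := hBre w (hB ▸ hw)
    have herr : DifferentiableAt ℂ FA.ZeroFree.errLog w :=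
      (((differentiable_riemannZeta₁.deriv w).div (differentiable_riemannZeta₁ w) h2).neg).sub
        (differentiable_riemannZeta₀ w)
    exact ((herr.neg.add (differentiableAt_properPowers (by linarith))).sub_const 1
      ).differentiableWithinAt
  obtain ⟨g, hg⟩ := hG.isExactOn_ball
  have hdc := fun w hw => deriv_densityCont hα hα1 he hαv (ha ▸ hsum) (z := w) hw
  obtain ⟨V, hV⟩ : ∃ V : Set ℂ, V = Metric.ball (v : ℂ) r ∩ {w | v < w.re} := ⟨_, rfl⟩
  have hVo : IsOpen V := hV ▸ Metric.isOpen_ball.inter (isOpen_lt continuous_const continuous_re)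
  obtain ⟨k, hk⟩ := hVo.exists_is_const_of_deriv_eq_zero
    (hV ▸ ((convex_ball _ _).inter (convex_halfSpace_re_gt v)).isPreconnected)
    (f := fun w => g w - densityCont C α e N w)
    (fun w hw => by
      rw [hV] at hw
      exact ((hg w hw.1).differentiableAt.sub (hdc w hw.2).2.1).differentiableWithinAt)
    (fun w hw => by
      rw [hV] at hw
      simp only [Pi.zero_apply]
      rw [deriv_fun_sub (hg w hw.1).differentiableAt (hdc w hw.2).2.1, (hg w hw.1).deriv,
        (hdc w hw.2).2.2, sub_self])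
  obtain ⟨Φ, hΦ⟩ : ∃ Φ : ℂ → ℂ, Φ = fun w =>
      C * riemannZeta (w + 1 - α) - e * ((g w - k) / w + errDefect w) - finitePart C α e N w :=
    ⟨_, rfl⟩
  have hΦd : ∀ w ∈ B, DifferentiableAt ℂ Φ w := fun w hw => by
    obtain ⟨h1, -⟩ := hBre w hw
    have hw0 : w ≠ 0 := fun h0 => by rw [h0] at h1; simp at h1; linarith
    rw [hΦ]
    exact (((differentiableAt_zeta_shift h1).const_mul _).sub
      (((((hg w (hB ▸ hw)).differentiableAt.sub_const k).div differentiableAt_id hw0).add
        (differentiableAt_errDefect (by linarith))).const_mul _)).sub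
      (differentiableAt_finitePart C α e N w)
  have hΦeq : ∀ w ∈ B, v < w.re → Φ w = LSeries a (w + 1) := fun w hw hwv => by
    have hk' := hk w (hV ▸ ⟨hB ▸ hw, hwv⟩)
    have hw0 : w ≠ 0 := fun h0 => by rw [h0] at hwv; simp at hwv; linarith
    have hec : (e : ℂ) ≠ 0 := Complex.ofReal_ne_zero.2 he
    rw [hΦ]
    simp only at hk' ⊢
    rw [show g w - k = densityCont C α e N w by linear_combination hk', densityCont, ← ha]
    field_simp
    ring
  classical
  obtain ⟨F, hF⟩ : ∃ F : ℂ → ℂ,
      F = fun w => if v + 1 < w.re then LSeries a w else Φ (w - 1) := ⟨_, rfl⟩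
  have hsub : ∀ w ∈ Metric.ball (((v + r / 4 + 1 : ℝ)) : ℂ) (r / 2), w - 1 ∈ B := fun w hw => by
    rw [Metric.mem_ball, dist_eq] at hw
    rw [hB, Metric.mem_ball, dist_eq]
    calc ‖w - 1 - (v : ℂ)‖ = ‖(w - ((v + r / 4 + 1 : ℝ) : ℂ)) + ((r / 4 : ℝ) : ℂ)‖ := by
          congr 1; push_cast; ring
      _ ≤ ‖w - ((v + r / 4 + 1 : ℝ) : ℂ)‖ + ‖((r / 4 : ℝ) : ℂ)‖ := norm_add_le _ _
      _ < r := by
          rw [Complex.norm_real, Real.norm_of_nonneg (by positivity)]
          linarith
  have hFd : DifferentiableOn ℂ F (Metric.ball (((v + r / 4 + 1 : ℝ)) : ℂ) (r / 2)) := by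
    refine DifferentiableOn.congr (f := fun w => Φ (w - 1)) (fun w hw => ?_) fun w hw => ?_
    · exact (DifferentiableAt.fun_comp' w (hΦd _ (hsub w hw))
        (differentiableAt_id.sub_const 1)).differentiableWithinAt
    · rw [hF]
      simp only
      split_ifs with h1
      · rw [hΦeq _ (hsub w hw) (by simp; linarith), sub_add_cancel]
      · rfl
  have heqOn : EqOn F (LSeries a) {w | v + 1 < w.re} := fun w hw => by
    rw [hF]
    exact if_pos hw
  obtain ⟨x, hx⟩ : ∃ x, x = v - r / 8 := ⟨_, rfl⟩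
  have hnn : ∀ n, 0 ≤ a n := fun n => ha ▸ tailErr_nonneg h n
  have hpart := fun T => FA.Signs.sum_term_le (a := a) hnn
    (x₀ := v + 1) (c := v + r / 4 + 1) (r := r / 2) (by linarith)
    (fun s hs => by
      have := hsum (s - 1) (by simp; linarith)
      rwa [sub_add_cancel] at this) hFd heqOn T (x := x + 1) (by linarith) (by linarith)
  have hterm : ∀ n, LSeries.term a ((x + 1 : ℝ) : ℂ) n =
      ((LSeries.term a ((x + 1 : ℝ) : ℂ) n).re : ℂ) ∧
      0 ≤ (LSeries.term a ((x + 1 : ℝ) : ℂ) n).re := fun n => by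
    rcases Nat.eq_zero_or_pos n with rfl | hn
    · simp
    rw [LSeries.term_of_ne_zero hn.ne', ha, ← Complex.ofReal_natCast,
      ← Complex.ofReal_cpow (Nat.cast_nonneg n), ← Complex.ofReal_div, Complex.ofReal_re]
    exact ⟨rfl, div_nonneg (Complex.zero_le_real.1 (tailErr_nonneg h n)) (by positivity)⟩
  have hxS : x ∈ S := by
    rw [hS]
    refine ⟨by linarith [hr ▸ min_le_right ε (v - α)], ?_⟩
    have hs : Summable fun n => (LSeries.term a ((x + 1 : ℝ) : ℂ) n).re := by
      refine summable_of_sum_le (fun n => (hterm n).2)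
        (c := (F ((x + 1 : ℝ) : ℂ)).re) fun T => ?_
      rw [← Complex.re_sum]
      exact (Complex.le_def.1 (hpart T)).1
    exact (Complex.summable_ofReal.2 hs).congr fun n => ((hterm n).1).symm
  have := csInf_le hbdd hxS
  linarith

/-- **Landau's theorem for `π - li`**: no zeros to the right of `α`. -/
theorem riemannZeta₁_ne_zero_of_primeErr_le (hα : 1 / 2 < α) (hα1 : α < 1) (he : e ≠ 0)
    (h : ∀ n, N ≤ n → e * primeErr n ≤ C * (n : ℝ) ^ α) {z : ℂ} (hz : α < z.re) :
    riemannZeta₁ z ≠ 0 :=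
  (deriv_densityCont hα hα1 he le_rfl (fun _ hw => summable_of_primeErr_le hα hα1 he h hw) hz).1

/-- A zero with real part above `α` makes `π n - li n` exceed every `C n ^ α` on both sides. -/
theorem frequently_primeCounting_of_zero {ρ : ℂ} (hρ : riemannZeta ρ = 0) (hρ1 : ρ ≠ 1)
    (hρ2 : 1 / 2 < ρ.re) {α : ℝ} (hαρ : α < ρ.re) (C : ℝ) {e : ℝ} (he : e ≠ 0) :
    ∃ᶠ n : ℕ in atTop, C * (n : ℝ) ^ α <
      e * ((Nat.primeCounting n : ℝ) - FA.VonKoch.liTwo n) := by
  intro h
  simp only [not_lt] at h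
  obtain ⟨N, hN⟩ := eventually_atTop.1 h
  have hre : ρ.re < 1 := by
    by_contra hge
    exact riemannZeta_ne_zero_of_one_le_re (not_lt.1 hge) hρ
  obtain ⟨β, hβ⟩ : ∃ β, β = max α ((1 / 2 + ρ.re) / 2) := ⟨_, rfl⟩
  have hβ1 : β < ρ.re := hβ ▸ max_lt hαρ (by linarith)
  have hβ2 : 1 / 2 < β := hβ ▸ lt_max_of_lt_right (by linarith)
  refine riemannZeta₁_ne_zero_of_primeErr_le (C := |C| + |e| * (2 / Real.log 2))
    (N := max N 2) hβ2 (hβ1.trans hre) he (fun n hn => ?_) hβ1 ?_
  · have hn2 : 2 ≤ n := (le_max_right _ _).trans hn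
    have hn1 : (1 : ℝ) ≤ n := by exact_mod_cast (show 1 ≤ n by omega)
    have hd := abs_primeErr_sub_le hn2
    have hb : 1 ≤ (n : ℝ) ^ β := Real.one_le_rpow hn1 (by linarith)
    have h1 : C * (n : ℝ) ^ α ≤ |C| * (n : ℝ) ^ β :=
      mul_le_mul (le_abs_self C) (Real.rpow_le_rpow_of_exponent_le hn1 (hβ ▸ le_max_left _ _))
        (by positivity) (abs_nonneg C)
    have h2 : e * (primeErr n - ((Nat.primeCounting n : ℝ) - FA.VonKoch.liTwo n)) ≤
        |e| * (2 / Real.log 2) * (n : ℝ) ^ β := by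
      refine (le_abs_self _).trans ?_
      rw [abs_mul]
      refine (mul_le_mul_of_nonneg_left hd (abs_nonneg e)).trans ?_
      exact le_mul_of_one_le_right
        (mul_nonneg (abs_nonneg e) (div_nonneg two_pos.le (Real.log_pos one_lt_two).le)) hb
    have := hN n ((le_max_left _ _).trans hn)
    linarith
  · rw [riemannZeta_eq_inv_sub_mul hρ1, mul_eq_zero] at hρ
    exact hρ.resolve_left (inv_ne_zero (sub_ne_zero.2 hρ1))

end FA.Littlewood

end
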