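import Fermat.Agent.LittlewoodOscillation.Kernel
import Fermat.Agent.LittlewoodOscillation.Approx
import Fermat.Agent.Root.SummaryRiemannMangoldt

/-!
# Littlewood's large values of `ψ u - u` under the Riemann hypothesis

With `δ = 1 / N` the frequencies `γ ≤ N log N` are brought into phase at some `log x` below
`N ^ (N³)`, so the average has size `√x log N`, and `log log log x = O (log N)`.
-/

set_option autoImplicit false

noncomputable section

namespace FA.Littlewood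

open Filter FA.RiemannMangoldt FA.ZeroFree FA.ExplicitFormula
open scoped Real Chebyshev

/-- A one-sided bound for `ψ u - u` bounds the average. -/
theorem sub_le_of_forall_le {a b B e : ℝ} (ha : 0 ≤ a) (hab : a < b) (he : |e| = 1)
    (h : ∀ u, a ≤ u → u ≤ b → e * (ψ u - u) ≤ B) :
    e * (psiOne b - psiOne a - (b ^ 2 - a ^ 2) / 2) ≤ (B + 1) * (b - a) := by
  obtain ⟨K, hK⟩ : ∃ K : ℕ, K = ⌈b - a⌉₊ + 1 := ⟨_, rfl⟩
  obtain ⟨h', hh⟩ : ∃ h', h' = (b - a) / K := ⟨_, rfl⟩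
  have hK0 : (0 : ℝ) < K := by rw [hK]; positivity
  have hh0 : 0 < h' := hh ▸ div_pos (by linarith) hK0
  have hh1 : h' ≤ 1 := by
    rw [hh, div_le_one hK0, hK]
    push_cast
    linarith [Nat.le_ceil (b - a)]
  obtain ⟨t, ht⟩ : ∃ t : ℕ → ℝ, t = fun (i : ℕ) => a + (i : ℝ) * h' := ⟨_, rfl⟩
  have ht0 : t 0 = a := by simp [ht]
  have htK : t K = b := by
    simp only [ht, hh]
    field_simp
    ring
  have hstep : ∀ i, i < K → e * (psiOne (t (i + 1)) - psiOne (t i)) -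
      e * (t (i + 1) ^ 2 - t i ^ 2) / 2 ≤ (B + 1) * h' := by
    intro i hi
    have ei : t (i + 1) = t i + h' := by simp only [ht]; push_cast; ring
    have h1 : a ≤ t i := by simp only [ht]; linarith [mul_nonneg (Nat.cast_nonneg i) hh0.le]
    have h2 : t (i + 1) ≤ b := by
      rw [← htK]
      simp only [ht]
      have : ((i + 1 : ℕ) : ℝ) ≤ K := Nat.cast_le.2 hi
      nlinarith
    have hb := psiOne_sub_bounds (x := t i) (y := t (i + 1)) (ha.trans h1) (by linarith)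
    rw [show t (i + 1) - t i = h' by linarith] at hb
    have hu := h (t (i + 1)) (by linarith) h2
    have hl := h (t i) h1 (by linarith)
    rw [ei] at hb hu ⊢
    rcases (abs_eq (by norm_num : (0 : ℝ) ≤ 1)).1 he with rfl | rfl
    · nlinarith [mul_le_mul_of_nonneg_left hu hh0.le]
    · nlinarith [mul_le_mul_of_nonneg_left hl hh0.le]
  have hs := Finset.sum_le_sum (s := Finset.range K) fun i hi => hstep i (Finset.mem_range.1 hi)
  rw [Finset.sum_sub_distrib, ← Finset.mul_sum, Finset.sum_range_sub (fun i => psiOne (t i)),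
    ← Finset.sum_div, ← Finset.mul_sum, Finset.sum_range_sub (fun i => t i ^ 2), Finset.sum_const,
    Finset.card_range, nsmul_eq_mul, ht0, htK] at hs
  have hKh : (K : ℝ) * h' = b - a := by rw [hh]; field_simp
  rw [← hKh] at *
  linarith

/-- The frequencies in `(N / 4, N]` are many. -/
theorem exists_sine_square_sum : ∃ σ, 0 < σ ∧ ∀ᶠ N : ℝ in atTop,
    σ * Real.log N ≤ ∑ ρ ∈ zerosUpTo (N * Real.log N),
      (zeroWeight ρ : ℝ) * (Real.sin (ρ.im * (1 / N)) ^ 2 / (1 / N * ρ.im ^ 2)) := by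
  have hπ := Real.pi_lt_d2
  have hπ3 := Real.pi_gt_three
  have hlim := FA.RiemannMangoldt.Summary.zeroCount_asymptotic
  have hlo := hlim.eventually_const_lt (show (1 : ℝ) / 8 < 1 / (2 * π) by
    exact one_div_lt_one_div_of_lt (by positivity) (by linarith))
  have hup := (hlim.comp (tendsto_id.atTop_div_const (show (0 : ℝ) < 4 by norm_num))
    ).eventually_lt_const (show 1 / (2 * π) < (1 : ℝ) / 5 by
      exact one_div_lt_one_div_of_lt (by norm_num) (by linarith))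
  have hs0 : 0 < Real.sin (1 / 4) := Real.sin_pos_of_pos_of_lt_pi (by norm_num) (by linarith)
  refine ⟨Real.sin (1 / 4) ^ 2 / 14, by positivity, ?_⟩
  filter_upwards [hlo, hup, eventually_ge_atTop 40] with N hN hN4 hN40
  simp only [Function.comp_apply, id_eq] at hN4
  have hN0 : 0 < N := by linarith
  have hl1 : 1 ≤ Real.log N := by
    rw [Real.le_log_iff_exp_le hN0]
    linarith [Real.exp_one_lt_three]
  rw [lt_div_iff₀ (by positivity)] at hN
  rw [div_lt_iff₀ (mul_pos (by linarith) (Real.log_pos (by linarith)))] at hN4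
  have hlog4 : Real.log (N / 4) ≤ Real.log N := Real.log_le_log (by linarith) (by linarith)
  have hcount : N * Real.log N / 14 ≤ (zeroCount N : ℝ) - zeroCount (N / 4) := by nlinarith
  obtain ⟨D, hD⟩ : ∃ D, D = (finite_zetaZeros N).toFinset \ (finite_zetaZeros (N / 4)).toFinset :=
    ⟨_, rfl⟩
  have hsub : (finite_zetaZeros (N / 4)).toFinset ⊆ (finite_zetaZeros N).toFinset := fun ρ hρ => by
    rw [Set.Finite.mem_toFinset] at hρ ⊢
    exact ⟨hρ.1, hρ.2.1, hρ.2.2.1, hρ.2.2.2.1, hρ.2.2.2.2.trans (by linarith)⟩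
  have hmem : ∀ ρ ∈ D, xiFn ρ = 0 ∧ N / 4 < ρ.im ∧ ρ.im ≤ N := fun ρ hρ => by
    rw [hD, Finset.mem_sdiff, Set.Finite.mem_toFinset, Set.Finite.mem_toFinset,
      mem_zetaZeros_iff, mem_zetaZeros_iff] at hρ
    exact ⟨hρ.1.1, not_le.1 fun hle => hρ.2 ⟨hρ.1.1, hρ.1.2.1, hle⟩, hρ.1.2.2⟩
  have hsum : (zeroCount N : ℝ) - zeroCount (N / 4) = ∑ ρ ∈ D, (zeroWeight ρ : ℝ) := by
    rw [zeroCount_eq, zeroCount_eq, hD, Nat.cast_sum, Nat.cast_sum,
      ← Finset.sum_sdiff hsub, add_sub_cancel_right]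
    rfl
  refine le_trans ?_ (Finset.sum_le_sum_of_subset_of_nonneg (s := D) (fun ρ hρ => ?_)
    fun ρ _ _ => by positivity)
  · calc Real.sin (1 / 4) ^ 2 / 14 * Real.log N
        = Real.sin (1 / 4) ^ 2 / N * (N * Real.log N / 14) := by field_simp
      _ ≤ Real.sin (1 / 4) ^ 2 / N * ∑ ρ ∈ D, (zeroWeight ρ : ℝ) :=
          mul_le_mul_of_nonneg_left (hsum ▸ hcount) (by positivity)
      _ ≤ _ := by
          rw [Finset.mul_sum]
          refine Finset.sum_le_sum fun ρ hρ => ?_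
          obtain ⟨-, h1, h2⟩ := hmem ρ hρ
          have hi : 0 < ρ.im := by linarith
          have ha : 1 / 4 ≤ ρ.im * (1 / N) := by
            rw [mul_one_div, le_div_iff₀ hN0]
            linarith
          have ha1 : ρ.im * (1 / N) ≤ 1 := by rw [mul_one_div, div_le_one hN0]; exact h2
          have hsin : Real.sin (1 / 4) ≤ Real.sin (ρ.im * (1 / N)) :=
            Real.sin_le_sin_of_le_of_le_pi_div_two (by linarith) (by linarith) ha
          rw [mul_comm]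
          refine mul_le_mul_of_nonneg_left ?_ (Nat.cast_nonneg _)
          refine div_le_div₀ (sq_nonneg _) (pow_le_pow_left₀ hs0.le hsin 2) (by positivity) ?_
          rw [div_mul_eq_mul_div, one_mul, div_le_iff₀ hN0]
          nlinarith
  · obtain ⟨h0, h1, h2⟩ := hmem ρ hρ
    refine mem_zerosUpTo.2 ⟨h0, ?_⟩
    rw [abs_of_pos (by linarith)]
    exact h2.trans (le_mul_of_one_le_right hN0.le hl1)

/-- `log N ≤ 2 √N`. -/
theorem log_le_two_sqrt {N : ℝ} (hN : 1 ≤ N) : Real.log N ≤ 2 * √N := by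
  have := Real.log_le_rpow_div (show 0 ≤ N by linarith) (show (0 : ℝ) < 1 / 2 by norm_num)
  rw [← Real.sqrt_eq_rpow] at this
  linarith

/-- The phases within `1 / N`. -/
theorem sin_phase_le {γ L s η δ : ℝ} (k : ℤ) (hk : |γ * L - 2 * π * k| ≤ η) (hs : |s| = 1) :
    |Real.sin (γ * (L + s * δ)) - s * Real.sin (γ * δ)| ≤ η := by
  have e : s * Real.sin (γ * δ) = Real.sin (γ * (s * δ)) := by
    rcases (abs_eq (by norm_num : (0 : ℝ) ≤ 1)).1 hs with rfl | rfl <;> simp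
  have e2 : Real.sin (γ * (L + s * δ)) = Real.sin ((γ * L - 2 * π * k) + γ * (s * δ)) := by
    rw [show γ * (L + s * δ) = (γ * L - 2 * π * k) + γ * (s * δ) + k * (2 * π) by ring,
      Real.sin_add_int_mul_two_pi]
  rw [e, e2]
  refine (Real.abs_sin_sub_sin_le _ _).trans ?_
  rw [add_sub_cancel_right]
  exact hk

/-- The size of `log log log x` for a point below `N ^ (N ^ 3)`. -/
theorem logs_le {N n q L B M l x : ℝ} {k : ℕ} (hN : 40 ≤ N) (hl : l = Real.log N) (hn : 1 ≤ n)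
    (hnq : n ≤ q ^ k) (hq : 1 ≤ q ∧ q ≤ 7 * N) (hL : L = n * N) (hk : (k : ℝ) ≤ B * N ^ 3)
    (hB : 0 ≤ B) (hM : M = 7 * B + 4) (hx : 0 < x) (hlx : Real.log x ≤ L + 1)
    (hlx1 : N - 1 ≤ Real.log x) :
    Real.log (Real.log (Real.log (2 * x))) ≤ (|Real.log M| + 4) * l := by
  have hN0 : 0 < N := by linarith
  have hLN : N ≤ L := hL ▸ le_mul_of_one_le_left hN0.le hn
  have hM0 : 0 < M := by linarith
  have hl1 : 1 ≤ l := by
    rw [hl, Real.le_log_iff_exp_le hN0]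
    linarith [Real.exp_one_lt_three]
  have h3L : Real.log (3 * L) ≤ M * N ^ 4 := by
    have h1 : Real.log n ≤ k * Real.log q := by
      rw [← Real.log_pow]
      exact Real.log_le_log (by linarith) hnq
    have h2 : Real.log q ≤ 7 * N := (Real.log_le_self (by linarith)).trans hq.2
    have h3 : (k : ℝ) * Real.log q ≤ B * N ^ 3 * (7 * N) :=
      mul_le_mul hk h2 (Real.log_nonneg hq.1) (by positivity)
    have h4 : Real.log 3 ≤ 3 := Real.log_le_self (by norm_num)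
    have h5 : N ≤ N ^ 4 := le_self_pow₀ (by linarith) (by norm_num)
    have h6 : Real.log N ≤ N := Real.log_le_self hN0.le
    rw [hL, Real.log_mul (by norm_num) (by positivity), Real.log_mul (by linarith) hN0.ne', hM]
    have e : B * N ^ 3 * (7 * N) = 7 * B * N ^ 4 := by ring
    linarith
  have h2x : Real.log (2 * x) ≤ 3 * L := by
    rw [Real.log_mul two_ne_zero hx.ne']
    linarith [Real.log_two_lt_d9]
  have h2x1 : 2 ≤ Real.log (2 * x) :=
    le_trans (by linarith : (2 : ℝ) ≤ Real.log x) (Real.log_le_log hx (by linarith))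
  have h7 : Real.log (Real.log (2 * x)) ≤ M * N ^ 4 :=
    (Real.log_le_log (by linarith) h2x).trans h3L
  refine (Real.log_le_log (Real.log_pos (by linarith)) h7).trans ?_
  rw [Real.log_mul hM0.ne' (by positivity), Real.log_pow, ← hl]
  push_cast
  nlinarith [le_abs_self (Real.log M), abs_nonneg (Real.log M)]

/-- The final combination. -/
theorem combine {e C₀ C₁ C σl V R S P sx : ℝ} (he : |e| = 1)
    (hK : sx * (2 * (C₀ + 800 * C₁ + C)) ≤ sx * σl) (hS : sx * σl ≤ sx * S)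
    (hC : C₀ ≤ sx * C₀) (ha : |V + R| ≤ C₀) (hb : |R - sx * P| ≤ C₁ * sx * 800)
    (hm : |sx * P - sx * (-e * S)| ≤ sx * C) :
    σl / 2 * sx ≤ e * V := by
  obtain ⟨a1, a2⟩ := abs_le.1 ha
  obtain ⟨b1, b2⟩ := abs_le.1 hb
  obtain ⟨m1, m2⟩ := abs_le.1 hm
  rcases (abs_eq (by norm_num : (0 : ℝ) ≤ 1)).1 he with rfl | rfl <;> linarith

/-- **The large averages.** -/
theorem exists_large_average (H : ∀ ρ : ℂ, xiFn ρ = 0 → ρ.re = 1 / 2) :
    ∃ c C, 0 < c ∧ 0 < C ∧ ∀ᶠ N : ℕ in atTop, ∀ e : ℝ, |e| = 1 → ∃ x δ : ℝ,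
      0 < δ ∧ δ ≤ 1 / 4 ∧ (N : ℝ) ≤ x ∧
      Real.log (Real.log (Real.log (2 * x))) ≤ C * Real.log N ∧
      c * √x * Real.log N ≤
        e * ((psiOne ((1 + δ) * x) - psiOne ((1 - δ) * x)) / (2 * δ * x) - x) := by
  obtain ⟨C₀, hC₀, havg⟩ := exists_average
  obtain ⟨C₁, hC₁, hhead⟩ := exists_head_bound H
  obtain ⟨C₂, hC₂, hcount⟩ := exists_sum_head
  obtain ⟨d, hd, hinv⟩ := exists_inv_im_le
  obtain ⟨σ, hσ, hS⟩ := exists_sine_square_sum
  obtain ⟨K, hK⟩ : ∃ K, K = C₀ + 800 * C₁ + 784 * (d * C₂) := ⟨_, rfl⟩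
  obtain ⟨M, hM⟩ : ∃ M, M = 7 * (1568 * C₂) + 4 := ⟨_, rfl⟩
  have hM0 : 0 < M := hM ▸ by positivity
  refine ⟨σ / 2, |Real.log M| + 4, half_pos hσ, by positivity, ?_⟩
  filter_upwards [tendsto_natCast_atTop_atTop.eventually hS, eventually_ge_atTop 40,
    (Real.tendsto_log_atTop.comp tendsto_natCast_atTop_atTop).eventually_ge_atTop (2 * K / σ)]
    with N hSN hN40 hlogK
  intro e he
  simp only [Function.comp_apply] at hlogK
  have hN : (40 : ℝ) ≤ N := by exact_mod_cast hN40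
  have hN0 : (0 : ℝ) < N := by linarith
  obtain ⟨l, hl⟩ : ∃ l, l = Real.log (N : ℝ) := ⟨_, rfl⟩
  rw [← hl] at hSN hlogK ⊢
  have hl1 : 1 ≤ l := by
    rw [hl, Real.le_log_iff_exp_le hN0]
    linarith [Real.exp_one_lt_three]
  have hl2 : l ≤ 2 * √(N : ℝ) := hl ▸ log_le_two_sqrt (by linarith)
  have hsq : √(N : ℝ) * √(N : ℝ) = N := Real.mul_self_sqrt hN0.le
  have hsq6 : 6 ≤ √(N : ℝ) := Real.le_sqrt_of_sq_le (by linarith)
  have hlN : l ≤ N := by nlinarith
  obtain ⟨Γ, hΓ⟩ : ∃ Γ, Γ = (N : ℝ) * l := ⟨_, rfl⟩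
  rw [← hΓ] at hSN
  obtain ⟨δ, hδ⟩ : ∃ δ, δ = 1 / (N : ℝ) := ⟨_, rfl⟩
  rw [← hδ] at hSN
  have hδ0 : 0 < δ := hδ ▸ by positivity
  have hδ4 : δ ≤ 1 / 4 := hδ ▸ one_div_le_one_div_of_le (by norm_num) (by linarith)
  have hΓ1 : 1 ≤ Γ := by rw [hΓ]; nlinarith
  have hΓN : Γ ≤ (N : ℝ) ^ 2 := by rw [hΓ, sq]; exact mul_le_mul_of_nonneg_left hlN hN0.le
  have hsmall : 3 * δ + 2 * Γ * δ ^ 2 ≤ 1 := by
    rw [hΓ, hδ, show 3 * (1 / (N : ℝ)) + 2 * (N * l) * (1 / (N : ℝ)) ^ 2 = (3 + 2 * l) / N by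
      field_simp, div_le_one hN0]
    nlinarith
  have hell : ell Γ ≤ 14 * l := by
    refine (ell_mono (by rw [abs_of_pos (by linarith), abs_of_nonneg (sq_nonneg _)]; exact hΓN :
      |Γ| ≤ |(N : ℝ) ^ 2|)).trans ((ell_le_log (by nlinarith)).trans (le_of_eq ?_))
    rw [Real.log_pow, hl]
    push_cast
    ring
  have hell2 : ell Γ ^ 2 ≤ 784 * N := by
    have := pow_le_pow_left₀ (ell_pos Γ).le (hell.trans (mul_le_mul_of_nonneg_left hl2
      (by norm_num))) 2
    nlinarith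
  have hell2δ : δ * ell Γ ^ 2 ≤ 784 := by
    rw [hδ, one_div_mul_eq_div, div_le_iff₀ hN0]
    exact hell2
  classical
  obtain ⟨A, hA⟩ : ∃ A : Finset ℝ, A = (zerosUpTo Γ).image Complex.im := ⟨_, rfl⟩
  have hhead1 := hcount Γ (zerosUpTo Γ) (by linarith) fun ρ hρ => mem_zerosUpTo.1 hρ
  have hcard : (A.card : ℝ) ≤ 1568 * C₂ * (N : ℝ) ^ 3 := by
    have h1 : (A.card : ℝ) ≤ ∑ ρ ∈ zerosUpTo Γ, (1 + Γ) * (zeroWeight ρ * (1 / (1 + |ρ.im|))) := by
      rw [hA]
      refine (Nat.cast_le.2 Finset.card_image_le).trans ?_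
      rw [Finset.card_eq_sum_ones, Nat.cast_sum]
      refine Finset.sum_le_sum fun ρ hρ => ?_
      rw [mem_zerosUpTo] at hρ
      have hw : (1 : ℝ) ≤ zeroWeight ρ := by exact_mod_cast one_le_zeroWeight hρ.1
      have h3 : 1 ≤ (1 + Γ) * (1 / (1 + |ρ.im|)) := by
        rw [mul_one_div, le_div_iff₀ (by positivity)]
        linarith [hρ.2]
      push_cast
      nlinarith
    rw [← Finset.mul_sum] at h1
    refine h1.trans ((mul_le_mul_of_nonneg_left (hhead1.trans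
      (mul_le_mul_of_nonneg_left hell2 hC₂)) (by linarith)).trans ?_)
    have : 1 + Γ ≤ 2 * (N : ℝ) ^ 2 := by nlinarith
    nlinarith [mul_le_mul_of_nonneg_right this (show 0 ≤ C₂ * (784 * (N : ℝ)) by positivity)]
  obtain ⟨n, hn1, hn2, hper⟩ := exists_near_period A (q := 7 * N) (by omega) (N : ℝ)
  obtain ⟨L, hL⟩ : ∃ L, L = (n : ℝ) * N := ⟨_, rfl⟩
  have hn1' : (1 : ℝ) ≤ n := by exact_mod_cast hn1
  have hLN : (N : ℝ) ≤ L := hL ▸ le_mul_of_one_le_left hN0.le hn1'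
  obtain ⟨x, hx⟩ : ∃ x, x = Real.exp (L + -e * δ) := ⟨_, rfl⟩
  have hx0 : 0 < x := hx ▸ Real.exp_pos _
  have hlx : Real.log x = L + -e * δ := by rw [hx, Real.log_exp]
  have hes : |-e| = 1 := by rwa [abs_neg]
  have hed : |(-e) * δ| ≤ 1 := by rw [abs_mul, hes, abs_of_pos hδ0]; linarith
  have hlx1 : (N : ℝ) - 1 ≤ Real.log x := by linarith [(abs_le.1 hed).1]
  have hxN2 : (N : ℝ) ^ 2 ≤ x := by
    rw [← Real.log_le_log_iff (by positivity) hx0, Real.log_pow, ← hl]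
    push_cast
    nlinarith
  have hxN : (N : ℝ) ≤ x := le_trans (by nlinarith) hxN2
  have hbig : 1 ≤ δ * √x := by
    rw [hδ, one_div_mul_eq_div, le_div_iff₀ hN0, one_mul]
    exact Real.le_sqrt_of_sq_le hxN2
  obtain ⟨hsum, hb⟩ := hhead x δ Γ hx0 hδ0 hδ4 hΓ1 hsmall
  have ha := havg x δ hx0 hδ0 hδ4 hbig hsum
  obtain ⟨S, hSdef⟩ : ∃ S, S = ∑ ρ ∈ zerosUpTo Γ,
      (zeroWeight ρ : ℝ) * (Real.sin (ρ.im * δ) ^ 2 / (δ * ρ.im ^ 2)) := ⟨_, rfl⟩
  rw [← hSdef] at hSN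
  have hphase : |(∑ ρ ∈ zerosUpTo Γ, mainWave x δ ρ) - -e * S| ≤ 784 * (d * C₂) := by
    rw [hSdef, Finset.mul_sum, ← Finset.sum_sub_distrib]
    refine (Finset.abs_sum_le_sum_abs _ _).trans ((Finset.sum_le_sum (g := fun ρ : ℂ =>
      δ * (d * (zeroWeight ρ * (1 / (1 + |ρ.im|))))) fun ρ hρ => ?_).trans ?_)
    · rw [mem_zerosUpTo] at hρ
      obtain ⟨k, hk⟩ := hper ρ.im (hA ▸ Finset.mem_image_of_mem _ (mem_zerosUpTo.2 hρ))
      rw [← hL] at hk
      have hη : 2 * π / ((7 * N : ℕ) : ℝ) ≤ δ := by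
        have hπ : 2 * π ≤ 7 := by linarith [Real.pi_lt_d2]
        rw [hδ, Nat.cast_mul, Nat.cast_ofNat, div_le_div_iff₀ (by positivity) hN0, one_mul]
        exact mul_le_mul_of_nonneg_right hπ hN0.le
      have hp := sin_phase_le (δ := δ) k (hk.trans hη) hes
      rw [← hlx] at hp
      have hi : 0 < |ρ.im| := abs_pos.2 (im_ne_zero_of_zero hρ.1)
      have e1 : mainWave x δ ρ - -e * (zeroWeight ρ * (Real.sin (ρ.im * δ) ^ 2 / (δ * ρ.im ^ 2))) =
          zeroWeight ρ * ((Real.sin (ρ.im * Real.log x) - -e * Real.sin (ρ.im * δ)) *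
            (Real.sin (ρ.im * δ) / (δ * ρ.im ^ 2))) := by
        rw [mainWave]
        ring
      rw [e1, abs_mul, Nat.abs_cast, abs_mul]
      have h2 : |Real.sin (ρ.im * δ) / (δ * ρ.im ^ 2)| ≤ 1 / |ρ.im| := by
        rw [abs_div, abs_mul, abs_of_pos hδ0, abs_pow, div_le_div_iff₀ (by positivity) hi, one_mul]
        refine (mul_le_mul_of_nonneg_right Real.abs_sin_le_abs hi.le).trans (le_of_eq ?_)
        rw [abs_mul, abs_of_pos hδ0]
        ring
      calc (zeroWeight ρ : ℝ) * (|Real.sin (ρ.im * Real.log x) - -e * Real.sin (ρ.im * δ)| *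
            |Real.sin (ρ.im * δ) / (δ * ρ.im ^ 2)|)
          ≤ zeroWeight ρ * (δ * (d * (1 / (1 + |ρ.im|)))) :=
            mul_le_mul_of_nonneg_left (mul_le_mul hp (h2.trans (hinv ρ hρ.1)) (abs_nonneg _)
              hδ0.le) (Nat.cast_nonneg _)
        _ = _ := by ring
    · rw [← Finset.mul_sum, ← Finset.mul_sum]
      calc δ * (d * ∑ ρ ∈ zerosUpTo Γ, (zeroWeight ρ : ℝ) * (1 / (1 + |ρ.im|)))
          ≤ δ * (d * (C₂ * ell Γ ^ 2)) := by gcongr
        _ = d * C₂ * (δ * ell Γ ^ 2) := by ring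
        _ ≤ d * C₂ * 784 := mul_le_mul_of_nonneg_left hell2δ (by positivity)
        _ = _ := by ring
  refine ⟨x, δ, hδ0, hδ4, hxN, ?_, ?_⟩
  · exact logs_le (N := (N : ℝ)) (n := (n : ℝ)) (q := ((7 * N : ℕ) : ℝ)) (L := L) (k := A.card)
      (M := M) (B := 1568 * C₂) (l := l) hN hl hn1' (by exact_mod_cast hn2)
      (by push_cast; exact ⟨by linarith, le_rfl⟩) hL hcard (by positivity) hM hx0
      (by rw [hlx]; linarith [(abs_le.1 hed).2]) hlx1
  · obtain ⟨V, hV⟩ : ∃ V, V = (psiOne ((1 + δ) * x) - psiOne ((1 - δ) * x)) / (2 * δ * x) - x :=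
      ⟨_, rfl⟩
    rw [← hV] at ha ⊢
    have hsx : 1 ≤ √x := Real.one_le_sqrt.2 (by linarith)
    have hb' : C₁ * √x * (1 + δ * ell Γ ^ 2 + ell Γ / (δ * Γ)) ≤ C₁ * √x * 800 := by
      refine mul_le_mul_of_nonneg_left ?_ (by positivity)
      have : ell Γ / (δ * Γ) ≤ 14 := by
        rw [show δ * Γ = l by rw [hδ, hΓ]; field_simp, div_le_iff₀ (by linarith)]
        exact hell
      linarith
    have hKl : 2 * K ≤ σ * l := by
      rw [div_le_iff₀ hσ] at hlogK
      linarith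
    have hm := mul_le_mul_of_nonneg_left hphase (Real.sqrt_nonneg x)
    rw [← abs_of_nonneg (Real.sqrt_nonneg x), ← abs_mul, abs_of_nonneg (Real.sqrt_nonneg x),
      mul_sub] at hm
    have hSK : √x * (σ * l) ≤ √x * S := mul_le_mul_of_nonneg_left hSN (Real.sqrt_nonneg x)
    have hKx : √x * (2 * K) ≤ √x * (σ * l) := mul_le_mul_of_nonneg_left hKl (Real.sqrt_nonneg x)
    have hC₀x : C₀ ≤ √x * C₀ := le_mul_of_one_le_left hC₀ hsx
    rw [hK] at hKx
    exact (le_of_eq (by ring)).trans (combine he hKx hSK hC₀x ha (hb.trans hb') hm)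

/-- **Littlewood**, on the Riemann hypothesis. -/
theorem exists_omega_psi (H : ∀ ρ : ℂ, xiFn ρ = 0 → ρ.re = 1 / 2) :
    ∃ c : ℝ, 0 < c ∧ ∀ e : ℝ, |e| = 1 → ∀ X : ℝ, ∃ u : ℝ, X ≤ u ∧
      c * √u * Real.log (Real.log (Real.log u)) < e * (ψ u - u) := by
  obtain ⟨c, C, hc, hC, hev⟩ := exists_large_average H
  refine ⟨c / (4 * C), by positivity, fun e he X => ?_⟩
  obtain ⟨N, hN, hNX, hN40, hNc⟩ := (hev.and
    ((eventually_ge_atTop ⌈2 * X⌉₊).and ((eventually_ge_atTop 40).and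
      ((Real.tendsto_log_atTop.comp tendsto_natCast_atTop_atTop).eventually_ge_atTop
        (4 / c))))).exists
  obtain ⟨x, δ, hδ, hδ4, hxN, hlll, hav⟩ := hN e he
  simp only [Function.comp_apply] at hNc
  have hN' : (40 : ℝ) ≤ N := by exact_mod_cast hN40
  have hXN : 2 * X ≤ N := (Nat.le_ceil _).trans (Nat.cast_le.2 hNX)
  have hx0 : 0 < x := by linarith
  have hl : 0 < Real.log (N : ℝ) := Real.log_pos (by linarith)
  have hsx : 1 ≤ √x := Real.one_le_sqrt.2 (by linarith)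
  obtain ⟨B, hB⟩ : ∃ B, B = c * √x * Real.log N - 2 := ⟨_, rfl⟩
  by_contra hno
  push Not at hno
  have hle : ∀ u, (1 - δ) * x ≤ u → u ≤ (1 + δ) * x → e * (ψ u - u) ≤ B := by
    intro u hu1 hu2
    have hu : x / 2 ≤ u := le_trans (by nlinarith) hu1
    have hu' : u ≤ 2 * x := hu2.trans (by nlinarith)
    refine (hno u (by linarith)).trans ?_
    have h4 : 2 ≤ Real.log u := by
      rw [Real.le_log_iff_exp_le (by linarith), show (2 : ℝ) = 1 + 1 by norm_num, Real.exp_add]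
      nlinarith [Real.exp_one_lt_three, Real.exp_pos 1]
    have h5 : Real.log (Real.log (Real.log u)) ≤ C * Real.log N :=
      le_trans (Real.log_le_log (Real.log_pos (by linarith))
        (Real.log_le_log (by linarith) (Real.log_le_log (by linarith) hu'))) hlll
    have h6 : √u ≤ 2 * √x := by
      rw [Real.sqrt_le_left (by positivity), mul_pow, Real.sq_sqrt hx0.le]
      linarith
    have h7 : 2 ≤ c / 2 * √x * Real.log N := by
      rw [div_le_iff₀ hc] at hNc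
      nlinarith [le_mul_of_one_le_left (mul_nonneg hc.le hl.le) hsx]
    calc c / (4 * C) * √u * Real.log (Real.log (Real.log u))
        ≤ c / (4 * C) * √u * (C * Real.log N) :=
          mul_le_mul_of_nonneg_left h5 (by positivity)
      _ ≤ c / (4 * C) * (2 * √x) * (C * Real.log N) := by gcongr
      _ = c / 2 * √x * Real.log N := by field_simp; ring
      _ ≤ B := by rw [hB]; linarith
  have h := sub_le_of_forall_le (by nlinarith) (by nlinarith) he hle
  have hden : 0 < 2 * δ * x := by positivity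
  rw [show ((1 + δ) * x) ^ 2 - ((1 - δ) * x) ^ 2 = 2 * (x * (2 * δ * x)) by ring,
    show (1 + δ) * x - (1 - δ) * x = 2 * δ * x by ring] at h
  rw [div_sub' hden.ne', mul_div_assoc', le_div_iff₀ hden] at hav
  nlinarith

end FA.Littlewood

end
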