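import Fermat.Agent.ExplicitFormula.Psi

/-!
# `π x - li x` under the Riemann hypothesis

There `ψ₁ x - x² / 2 = O (x ^ (3/2))`, so `π x - li x = (ψ x - x) / log x + O (√x / log x)`.
-/

set_option autoImplicit false

noncomputable section

namespace FA.Littlewood

open Real MeasureTheory Set Filter Topology FA.RiemannMangoldt FA.ZeroFree FA.ExplicitFormula
open scoped Chebyshev

theorem hasDerivWithinAt_psiOne {x : ℝ} (hx : 0 ≤ x) :
    HasDerivWithinAt psiOne (ψ x) (Ioi x) x := by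
  have hlt : x < (⌊x⌋₊ : ℝ) + 1 := Nat.lt_floor_add_one x
  have hlin : HasDerivWithinAt (fun y => psiOne x + (y - x) * ψ x) (ψ x) (Ioi x) x := by
    simpa using ((((hasDerivAt_id x).sub_const x).mul_const (ψ x)).const_add (psiOne x)
      ).hasDerivWithinAt
  refine hlin.congr_of_eventuallyEq ?_ (by simp)
  filter_upwards [self_mem_nhdsWithin, nhdsWithin_le_nhds (Iio_mem_nhds hlt)] with y hy hy'
  rw [mem_Ioi] at hy
  rw [mem_Iio] at hy'
  obtain ⟨h1, h2⟩ := psiOne_sub_bounds hx hy.le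
  have hfl : ⌊y⌋₊ = ⌊x⌋₊ :=
    Nat.floor_eq_iff (hx.trans hy.le) |>.2 ⟨(Nat.floor_le hx).trans hy.le, hy'⟩
  rw [Chebyshev.psi_eq_psi_coe_floor y, hfl, ← Chebyshev.psi_eq_psi_coe_floor] at h2
  linarith

theorem continuousOn_psiOne {a b : ℝ} (ha : 0 ≤ a) : ContinuousOn psiOne (Icc a b) := by
  have key : ∀ u v : ℝ, a ≤ u → u ≤ v → v ≤ b → |psiOne v - psiOne u| ≤ ψ b * (v - u) := by
    intro u v hu huv hv
    obtain ⟨h1, h2⟩ := psiOne_sub_bounds (ha.trans hu) huv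
    have h3 : (v - u) * ψ v ≤ ψ b * (v - u) := by
      rw [mul_comm (ψ b)]
      exact mul_le_mul_of_nonneg_left (Chebyshev.psi_mono hv) (by linarith)
    rw [abs_of_nonneg (le_trans (mul_nonneg (by linarith) (Chebyshev.psi_nonneg u)) h1)]
    linarith
  refine (LipschitzOnWith.of_dist_le_mul (K := (ψ b).toNNReal) fun u hu v hv => ?_).continuousOn
  rw [Real.coe_toNNReal _ (Chebyshev.psi_nonneg b), Real.dist_eq, Real.dist_eq]
  rcases le_total u v with h | h
  · rw [abs_sub_comm (psiOne u), abs_sub_comm u, abs_of_nonneg (sub_nonneg.2 h)]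
    exact key u v hu.1 h hv.2
  · rw [abs_of_nonneg (sub_nonneg.2 h)]
    exact key v u hv.1 h hu.2

/-- `ψ₁ x = x² / 2 + O (x ^ (3/2))`. -/
theorem exists_psiOne_bound (H : ∀ ρ : ℂ, xiFn ρ = 0 → ρ.re = 1 / 2) :
    ∃ C, 0 ≤ C ∧ ∀ x : ℝ, 1 ≤ x → |psiOne x - x ^ 2 / 2| ≤ C * (x * √x) := by
  obtain ⟨C, hC, hex⟩ := exists_explicit
  obtain ⟨A, hA, hsq⟩ := exists_sq_sum
  obtain ⟨d, hd, hinv⟩ := exists_inv_im_le
  obtain ⟨q, hq⟩ : ∃ q, q = deriv riemannZeta 0 / riemannZeta 0 := ⟨_, rfl⟩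
  simp only [← hq] at hex
  refine ⟨C + d ^ 2 * A + ‖q‖, by positivity, fun x hx => ?_⟩
  have hx0 : 0 < x := by linarith
  have hsx : 1 ≤ √x := one_le_sqrt.2 hx
  have hT : ‖∑' ρ, zeroTerm x ρ‖ ≤ x * √x * (d ^ 2 * A) := by
    refine (norm_tsum_le_tsum_norm (summable_norm_zeroTerm hx0)).trans
      (Real.tsum_le_of_sum_le (fun ρ => norm_nonneg _) fun S => ?_)
    refine (Finset.sum_le_sum (g := fun ρ => x * √x * (d ^ 2 *
      (zeroWeight ρ * (1 / (1 + |ρ.im|) ^ 2)))) fun ρ _ => ?_).trans ?_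
    · by_cases hρ : xiFn ρ = 0
      · rw [zeroTerm, norm_mul, Complex.norm_natCast, norm_div,
          Complex.norm_cpow_eq_rpow_re_of_pos hx0, Complex.add_re, Complex.one_re, H ρ hρ,
          rpow_add_one hx0.ne', ← sqrt_eq_rpow, div_eq_mul_one_div]
        have hden : 1 / ‖ρ * (ρ + 1)‖ ≤ d ^ 2 * (1 / (1 + |ρ.im|) ^ 2) := by
          refine (one_div_le_one_div_of_le ?_ (norm_mul_add_one_ge hρ)).trans ?_
          · exact sq_pos_of_ne_zero (im_ne_zero_of_zero hρ)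
          · rw [← sq_abs, ← one_div_pow, ← one_div_pow, ← mul_pow]
            exact pow_le_pow_left₀ (by positivity) (hinv ρ hρ) 2
        calc (zeroWeight ρ : ℝ) * (√x * x * (1 / ‖ρ * (ρ + 1)‖))
            ≤ zeroWeight ρ * (√x * x * (d ^ 2 * (1 / (1 + |ρ.im|) ^ 2))) := by gcongr
          _ = _ := by ring
      · simp [zeroTerm_eq_zero _ hρ, zeroWeight_eq_zero hρ]
    · rw [← Finset.mul_sum, ← Finset.mul_sum]
      gcongr
      exact hsq S
  obtain ⟨P, hP⟩ : ∃ P : ℂ, P = (psiOne x : ℂ) - ((x : ℂ) ^ 2 / 2 - ∑' ρ, zeroTerm x ρ -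
      (x : ℂ) * q) := ⟨_, rfl⟩
  have hP' : ‖P‖ ≤ C * √x := hP ▸ hex x hx0
  have e : ((psiOne x - x ^ 2 / 2 : ℝ) : ℂ) = P - ∑' ρ, zeroTerm x ρ - (x : ℂ) * q := by
    rw [hP]
    push_cast
    ring
  rw [← norm_eq_abs, ← Complex.norm_real, e]
  refine (norm_sub_le _ _).trans ((add_le_add (norm_sub_le _ _) le_rfl).trans ?_)
  rw [norm_mul, Complex.norm_real, norm_of_nonneg hx0.le]
  have h1 : C * √x ≤ C * (x * √x) :=
    mul_le_mul_of_nonneg_left (le_mul_of_one_le_left (sqrt_nonneg x) hx) hC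
  have h2 : x * ‖q‖ ≤ ‖q‖ * (x * √x) := by
    rw [mul_comm]
    exact mul_le_mul_of_nonneg_left (le_mul_of_one_le_right hx0.le hsx) (norm_nonneg _)
  linarith

/-- `∫ dt / (√t log² t) = O (√x / log² x)`. -/
theorem exists_integral_decay_le : ∃ C, 0 ≤ C ∧ ∀ x : ℝ, 2 ≤ x → ∀ t : ℝ, 2 ≤ t → t ≤ x →
    1 / (√t * log t ^ 2) ≤ C * (x ^ (1 / 4 : ℝ) / log x ^ 2) * t ^ (1 / 4 - 1 : ℝ) := by
  have hl2 : 0 < log 2 := log_pos one_lt_two
  refine ⟨(1 + 8 / log 2) ^ 2, sq_nonneg _, fun x hx t ht htx => ?_⟩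
  have ht0 : 0 < t := by linarith
  have hlt : log 2 ≤ log t := log_le_log two_pos ht
  have hlt0 : 0 < log t := by linarith
  have hlx : 0 < log x := log_pos (by linarith)
  obtain ⟨r, hr⟩ : ∃ r, r = (x / t) ^ (1 / 8 : ℝ) := ⟨_, rfl⟩
  have hxt : 1 ≤ x / t := by rw [le_div_iff₀ ht0]; linarith
  have hr1 : 1 ≤ r := hr ▸ one_le_rpow hxt (by norm_num)
  have h1 : log x ≤ log t * ((1 + 8 / log 2) * r) := by
    have h2 := log_le_rpow_div (show 0 ≤ x / t by positivity) (show (0 : ℝ) < 1 / 8 by norm_num)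
    rw [← hr, log_div (by linarith) ht0.ne'] at h2
    have h3 : 8 * r ≤ log t * (8 / log 2 * r) := by
      calc 8 * r = log 2 * (8 / log 2 * r) := by field_simp
        _ ≤ _ := mul_le_mul_of_nonneg_right hlt (by positivity)
    nlinarith [le_mul_of_one_le_right hlt0.le hr1]
  have h4 : log x ^ 2 ≤ log t ^ 2 * ((1 + 8 / log 2) ^ 2 * (x / t) ^ (1 / 4 : ℝ)) := by
    refine (pow_le_pow_left₀ hlx.le h1 2).trans (le_of_eq ?_)
    rw [mul_pow, mul_pow, hr, ← rpow_natCast ((x / t) ^ (1 / 8 : ℝ)), ← rpow_mul (by positivity)]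
    norm_num
  rw [rpow_sub_one ht0.ne', div_rpow (by linarith) ht0.le] at *
  have hst : √t = t ^ (1 / 4 : ℝ) * t ^ (1 / 4 : ℝ) := by
    rw [sqrt_eq_rpow, ← rpow_add ht0]
    norm_num
  have hst2 : t = √t * √t := (mul_self_sqrt ht0.le).symm
  rw [div_le_iff₀ (by positivity)]
  obtain ⟨w, hw⟩ : ∃ w, w = t ^ (1 / 4 : ℝ) := ⟨_, rfl⟩
  have hw0 : 0 < w := hw ▸ rpow_pos_of_pos ht0 _
  rw [← hw] at h4 hst ⊢
  rw [show (1 + 8 / log 2) ^ 2 * (x ^ (1 / 4 : ℝ) / log x ^ 2) * (w / t) * (√t * log t ^ 2) =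
      (log t ^ 2 * ((1 + 8 / log 2) ^ 2 * (x ^ (1 / 4 : ℝ) / w))) / log x ^ 2 by
    have e : t = w * w * (w * w) := by rw [← hst]; exact hst2
    rw [hst, e]
    field_simp]
  rwa [le_div_iff₀ (by positivity), one_mul]

/-- **`π x - li x = (ψ x - x) / log x + O (√x / log x)`.** -/
theorem exists_primeCount_sub (H : ∀ ρ : ℂ, xiFn ρ = 0 → ρ.re = 1 / 2) :
    ∃ C, 0 ≤ C ∧ ∀ x : ℝ, 2 ≤ x →
      |(Nat.primeCounting ⌊x⌋₊ : ℝ) - FA.VonKoch.liTwo x - (ψ x - x) / log x| ≤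
        C * (√x / log x) := by
  obtain ⟨R₀, hR₀, hR⟩ := exists_psiOne_bound H
  obtain ⟨D, hD, hdec⟩ := exists_integral_decay_le
  obtain ⟨P, hP⟩ := Chebyshev.psi_sub_theta_le_mul_sqrt
  obtain ⟨Q, hQ⟩ : ∃ Q, Q = |P| := ⟨_, rfl⟩
  have hl2 : 0 < log 2 := log_pos one_lt_two
  obtain ⟨E, hE⟩ : ∃ E, E = R₀ * (1 + 2 / log 2) + Q := ⟨_, rfl⟩
  have hQ0 : 0 ≤ Q := hQ ▸ abs_nonneg P
  have hE0 : 0 ≤ E := hE ▸ by positivity
  obtain ⟨W, hW⟩ : ∃ W, W = |(psiOne 2 - 2 ^ 2 / 2) / (2 * log 2 ^ 2)| + 2 / log 2 := ⟨_, rfl⟩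
  have hW0 : 0 ≤ W := hW ▸ by positivity
  refine ⟨Q + R₀ / log 2 + 4 * E * D / log 2 + 2 * W, by positivity, fun x hx => ?_⟩
  have hx0 : 0 < x := by linarith
  have hlx : log 2 ≤ log x := log_le_log two_pos hx
  have hlx0 : 0 < log x := by linarith
  have hne : ∀ t ∈ uIcc 2 x, t ≠ 0 ∧ log t ≠ 0 := fun t ht => by
    rw [uIcc_of_le hx] at ht
    exact ⟨by linarith [ht.1], (log_pos (by linarith [ht.1])).ne'⟩
  have hsqrtQ : ∀ t : ℝ, |ψ t - θ t| ≤ Q * √t := fun t => by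
    rw [abs_of_nonneg (sub_nonneg.2 (Chebyshev.theta_le_psi t)), hQ]
    exact (hP t).trans (mul_le_mul_of_nonneg_right (le_abs_self P) (sqrt_nonneg t))
  obtain ⟨φ, hφ⟩ : ∃ φ : ℝ → ℝ, φ = fun t => 1 / (t * log t ^ 2) := ⟨_, rfl⟩
  obtain ⟨φ', hφ'⟩ : ∃ φ' : ℝ → ℝ,
      φ' = fun t => -(log t ^ 2 + 2 * log t) / (t * log t ^ 2) ^ 2 := ⟨_, rfl⟩
  have hφd : ∀ t ∈ uIcc 2 x, HasDerivAt φ (φ' t) t := fun t ht => by
    obtain ⟨h1, h2⟩ := hne t ht
    rw [hφ, hφ']
    refine ((hasDerivAt_const t (1 : ℝ)).div ((hasDerivAt_id' t).mul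
      ((hasDerivAt_log h1).pow 2)) (mul_ne_zero h1 (pow_ne_zero 2 h2))).congr_deriv ?_
    simp only [Pi.pow_apply, Pi.mul_apply, Nat.cast_ofNat, Nat.add_one_sub_one, pow_one]
    field_simp
    ring
  have hφc : ContinuousOn φ (uIcc 2 x) := fun t ht => (hφd t ht).continuousAt.continuousWithinAt
  have hφ'c : ContinuousOn φ' (uIcc 2 x) := fun t ht => by
    obtain ⟨h1, h2⟩ := hne t ht
    have h3 : (t * log t ^ 2) ^ 2 ≠ 0 := pow_ne_zero 2 (mul_ne_zero h1 (pow_ne_zero 2 h2))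
    rw [hφ']
    exact (ContinuousAt.continuousWithinAt (by fun_prop (disch := assumption)))
  have hRc : ContinuousOn (fun t => psiOne t - t ^ 2 / 2) (uIcc 2 x) := by
    rw [uIcc_of_le hx]
    exact (continuousOn_psiOne (by norm_num)).sub (by fun_prop)
  have i1 : IntervalIntegrable (fun t => (ψ t - t) * φ t) volume 2 x :=
    ((Chebyshev.psi_mono.intervalIntegrable).sub
      (continuous_id.intervalIntegrable 2 x)).mul_continuousOn hφc
  have i2 : IntervalIntegrable (fun t => (psiOne t - t ^ 2 / 2) * φ' t) volume 2 x :=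
    (hRc.mul hφ'c).intervalIntegrable
  have hparts : (∫ t in (2 : ℝ)..x, (ψ t - t) * φ t) =
      (psiOne x - x ^ 2 / 2) * φ x - (psiOne 2 - 2 ^ 2 / 2) * φ 2 -
        ∫ t in (2 : ℝ)..x, (psiOne t - t ^ 2 / 2) * φ' t := by
    have h := intervalIntegral.integral_eq_sub_of_hasDeriv_right_of_le hx
      (f := fun t => (psiOne t - t ^ 2 / 2) * φ t)
      (f' := fun t => (ψ t - t) * φ t + (psiOne t - t ^ 2 / 2) * φ' t)
      (by
        rw [← uIcc_of_le hx]
        exact hRc.mul hφc)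
      (fun t ht => by
        refine (((hasDerivWithinAt_psiOne (by linarith [ht.1])).sub
          ((hasDerivAt_pow 2 t).div_const 2).hasDerivWithinAt).mul
            (hφd t (by rw [uIcc_of_le hx]; exact Ioo_subset_Icc_self ht)).hasDerivWithinAt
          ).congr_deriv ?_
        simp only [Pi.sub_apply]
        push_cast
        ring)
      (i1.add i2)
    rw [intervalIntegral.integral_add i1 i2] at h
    linarith
  obtain ⟨J, hJ⟩ : ∃ J, J = x ^ (1 / 4 : ℝ) / log x ^ 2 := ⟨_, rfl⟩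
  have i3 : IntervalIntegrable (fun t => θ t / (t * log t ^ 2)) volume 2 x :=
    (intervalIntegrable_iff_integrableOn_Icc_of_le hx).2
      (Chebyshev.integrableOn_theta_div_id_mul_log_sq x)
  have i4 : IntervalIntegrable (fun t => 1 / log t ^ 2) volume 2 x :=
    Chebyshev.intervalIntegrable_one_div_log_sq one_lt_two (by linarith)
  have hint : |(∫ t in (2 : ℝ)..x, θ t / (t * log t ^ 2)) - (∫ t in (2 : ℝ)..x, 1 / log t ^ 2) -
      (∫ t in (2 : ℝ)..x, (ψ t - t) * φ t) -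
      ∫ t in (2 : ℝ)..x, (psiOne t - t ^ 2 / 2) * φ' t| ≤ 4 * E * D * (√x / log x ^ 2) := by
    rw [← intervalIntegral.integral_sub i3 i4, ← intervalIntegral.integral_sub (i3.sub i4) i1,
      ← intervalIntegral.integral_sub ((i3.sub i4).sub i1) i2, ← norm_eq_abs]
    refine (intervalIntegral.norm_integral_le_of_norm_le hx
      (Eventually.of_forall fun t ht => ?_)
      ((intervalIntegral.intervalIntegrable_rpow' (by norm_num : (-1 : ℝ) < 1 / 4 - 1)).const_mul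
        (E * (D * J)))).trans ?_
    · have ht0 : 0 < t := by linarith [ht.1]
      have hlt : log 2 ≤ log t := log_le_log two_pos ht.1.le
      have hlt0 : 0 < log t := by linarith
      obtain ⟨S, hS⟩ : ∃ S, S = 1 / (√t * log t ^ 2) := ⟨_, rfl⟩
      have h1 : |θ t / (t * log t ^ 2) - 1 / log t ^ 2 - (ψ t - t) * φ t| ≤ Q * S := by
        have e : θ t / (t * log t ^ 2) - 1 / log t ^ 2 - (ψ t - t) * φ t =
            -(ψ t - θ t) / (t * log t ^ 2) := by
          rw [hφ]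
          field_simp
          ring
        rw [e, abs_div, abs_neg, abs_of_pos (by positivity : 0 < t * log t ^ 2)]
        calc |ψ t - θ t| / (t * log t ^ 2) ≤ Q * √t / (t * log t ^ 2) := by
              gcongr
              exact hsqrtQ t
          _ = Q * S := by
              rw [hS]
              field_simp
              rw [sq_sqrt ht0.le]
      have h2 : |(psiOne t - t ^ 2 / 2) * φ' t| ≤ R₀ * (1 + 2 / log 2) * S := by
        rw [abs_mul, hφ', abs_div, abs_neg,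
          abs_of_pos (by positivity : 0 < log t ^ 2 + 2 * log t),
          abs_of_pos (by positivity : 0 < (t * log t ^ 2) ^ 2)]
        have h3 : log t ^ 2 + 2 * log t ≤ (1 + 2 / log 2) * log t ^ 2 := by
          have : 2 * log t ≤ 2 / log 2 * log t ^ 2 := by
            calc 2 * log t = 2 / log 2 * (log 2 * log t) := by field_simp
              _ ≤ _ := by rw [sq]; gcongr
          linarith
        calc |psiOne t - t ^ 2 / 2| * ((log t ^ 2 + 2 * log t) / (t * log t ^ 2) ^ 2)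
            ≤ R₀ * (t * √t) * ((1 + 2 / log 2) * log t ^ 2 / (t * log t ^ 2) ^ 2) := by
              gcongr
              exact hR t (by linarith [ht.1])
          _ = R₀ * (1 + 2 / log 2) * S := by
              rw [hS]
              field_simp
              rw [sq_sqrt ht0.le]
      rw [norm_eq_abs]
      refine (abs_sub _ _).trans ((add_le_add h1 h2).trans ?_)
      rw [← add_mul, add_comm Q, ← hE, mul_assoc]
      exact mul_le_mul_of_nonneg_left (hS ▸ hJ ▸ hdec x hx t ht.1.le ht.2) hE0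
    · rw [intervalIntegral.integral_const_mul]
      refine (mul_le_mul_of_nonneg_left (FA.VonKoch.integral_rpow_le (by norm_num))
        (by rw [hJ]; positivity)).trans (le_of_eq ?_)
      rw [hJ, sqrt_eq_rpow, show (1 / 2 : ℝ) = 1 / 4 + 1 / 4 by norm_num, rpow_add hx0]
      ring
  have hparts2 : FA.VonKoch.liTwo x = x / log x - 2 / log 2 +
      ∫ t in (2 : ℝ)..x, 1 / log t ^ 2 := by
    have hd : ∀ t ∈ uIcc 2 x,
        HasDerivAt (fun u => u / log u) (1 / log t - 1 / log t ^ 2) t := fun t ht => by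
      obtain ⟨h1, h2⟩ := hne t ht
      refine ((hasDerivAt_id' t).div (hasDerivAt_log h1) h2).congr_deriv ?_
      field_simp
    have h := intervalIntegral.integral_eq_sub_of_hasDerivAt hd
      ((FA.VonKoch.intervalIntegrable_inv_log hx).sub i4)
    rw [intervalIntegral.integral_sub (FA.VonKoch.intervalIntegrable_inv_log hx) i4] at h
    unfold FA.VonKoch.liTwo
    linarith
  have hsl : √x / log x ^ 2 ≤ 1 / log 2 * (√x / log x) := by
    rw [div_mul_div_comm, one_mul, sq]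
    exact div_le_div_of_nonneg_left (sqrt_nonneg x) (by positivity)
      (mul_le_mul_of_nonneg_right hlx hlx0.le)
  have hb1 : |(ψ x - θ x) / log x| ≤ Q * (√x / log x) := by
    rw [abs_div, abs_of_pos hlx0, mul_div_assoc']
    gcongr
    exact hsqrtQ x
  have hb2 : |(psiOne x - x ^ 2 / 2) * φ x| ≤ R₀ / log 2 * (√x / log x) := by
    rw [abs_mul, hφ, abs_of_pos (by positivity : 0 < 1 / (x * log x ^ 2))]
    calc |psiOne x - x ^ 2 / 2| * (1 / (x * log x ^ 2))
        ≤ R₀ * (x * √x) * (1 / (x * log x ^ 2)) := by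
          gcongr
          exact hR x (by linarith)
      _ = R₀ * (√x / log x ^ 2) := by field_simp
      _ ≤ R₀ * (1 / log 2 * (√x / log x)) := mul_le_mul_of_nonneg_left hsl hR₀
      _ = _ := by ring
  have hb3 : |(psiOne 2 - 2 ^ 2 / 2) * φ 2| + 2 / log 2 ≤ 2 * W * (√x / log x) := by
    rw [hφ]
    simp only [mul_one_div]
    rw [← hW]
    have : 1 / 2 ≤ √x / log x := by
      rw [le_div_iff₀ hlx0]
      have := Real.log_le_rpow_div hx0.le (show (0 : ℝ) < 1 / 2 by norm_num)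
      rw [← sqrt_eq_rpow] at this
      linarith
    nlinarith
  have hk : 4 * E * D * (√x / log x ^ 2) ≤ 4 * E * D / log 2 * (√x / log x) :=
    (mul_le_mul_of_nonneg_left hsl (by positivity)).trans (le_of_eq (by ring))
  rw [Chebyshev.primeCounting_eq_theta_div_log_add_integral hx, hparts2]
  obtain ⟨a1, a2⟩ := abs_le.1 hint
  obtain ⟨b1, b2⟩ := abs_le.1 hb1
  obtain ⟨c1, c2⟩ := abs_le.1 hb2
  have d1 := neg_abs_le ((psiOne 2 - 2 ^ 2 / 2) * φ 2)
  have d2 := le_abs_self ((psiOne 2 - 2 ^ 2 / 2) * φ 2)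
  have hl0 : 0 ≤ 2 / log 2 := by positivity
  rw [sub_div] at b1 b2 ⊢
  rw [abs_le]
  constructor <;> linarith

end FA.Littlewood

end
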